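import Fermat.Agent.LT.T7.H534.SpecDownSpec
import Fermat.Agent.LT.H129.HeckeExists

/-!
# Row LT, tower T7, leaf T7.L2.3.2 `SD534.IwSysC` (registry 2122) — helper510, OFF-MAIN

    iwSysC_h510 (K) : Fermat.Agent.LT.T7.SD534.IwSysC K

verbatim against `LT/T7/H534/SpecDownSpec.lean` (helper534@756e78a11, sha256 3f1c4f48) and
`LT/T7/Level2.lean` (15516646); toolbox `LT/H129/HeckeExists.lean` (helper129, 283484f0:
`locFin129`, `rep129`, `stdHecke129`, `exists_scalarUniformizer129`).

At a finite place `u` with uniformiser `π` the `q = N u` elements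
`h_a = [[π, a], [0, 1]]` (`a` a system of representatives of `𝒪/u`; at the place `u`, `1`
elsewhere) form an Iwahori coset system: `h_a = n(a) · diag(π, 1) · 1` lies in
`I diag(π, 1) I`, and `h_a⁻¹ h_b = n((b - a)/π)` is not integral for `a ≠ b`.
-/

set_option autoImplicit false
set_option linter.style.haveILetI false

open AutomorphicForm IsDedekindDomain NumberField MeasureTheory

noncomputable section

namespace Fermat.Agent.LT.T7.H510

open Fermat.Agent.LT.H556 Fermat.Agent.LT.H556.A0 Fermat.Agent.LT.H129 Fermat.Agent.LT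

variable {K : Type} [Field K] [NumberField K] (v : HeightOneSpectrum (𝓞 K))

/-- The identity lies in the Iwahori subgroup. -/
theorem inIwahori_one_h510 : T5.InIwahori v (1 : G K) := by
  have h1 : finComp v (1 : G K) = 1 := by
    rw [← coe_finCompHom129, map_one]
    rfl
  have hint : IsIntegralAt v (1 : G K) := by
    rw [← isInt129_finCompHom_iff, map_one]
    exact isInt129_one _
  refine ⟨hint, ?_, ?_⟩
  · rw [inv_one]
    exact hint
  · rw [h1, Matrix.one_apply_ne (by decide), map_zero]
    exact zero_lt_one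

/-- The upper unipotent element with an integral entry lies in the Iwahori subgroup. -/
theorem inIwahori_upper_h510 {a : v.adicCompletion K} (ha : a ∈ v.adicCompletionIntegers K) :
    T5.InIwahori v (locFin129 v (upperU129 a)) := by
  have hm := isMaxCpt129_upperU (O := v.adicCompletionIntegers K) ha
  refine ⟨?_, ?_, ?_⟩
  · rw [← isInt129_finCompHom_iff, finCompHom129_locFin129]
    exact hm.1
  · rw [← isInt129_finCompHom_iff, map_inv, finCompHom129_locFin129]
    exact hm.2
  · rw [finComp_locFin129]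
    have h0 : ((upperU129 a : GL (Fin 2) (v.adicCompletion K)) :
        Matrix (Fin 2) (Fin 2) (v.adicCompletion K)) 1 0 = 0 := by
      unfold upperU129
      rw [coe_mkGL129]
      rfl
    rw [h0, map_zero]
    exact zero_lt_one

/-- `[[π, a], [0, 1]] = n(a) diag(π, 1)`. -/
theorem mkGL_eq_upper_mul_h510 {F : Type*} [Field F] (π a : F) (hπ : π ≠ 0) :
    mkGL129 π a 0 1 (by simpa using hπ)
      = upperU129 a * mkGL129 π 0 0 1 (by simpa using hπ) := by
  apply ext_mat129
  unfold upperU129
  rw [Matrix.GeneralLinearGroup.coe_mul, coe_mkGL129, coe_mkGL129, coe_mkGL129]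
  ext i j
  fin_cases i <;> fin_cases j <;> simp [Matrix.mul_apply, Fin.sum_univ_two]

/-- The standard representatives lie in `I diag(π, 1) I`. -/
theorem inIwahoriCoset_std_h510 {π : v.adicCompletion K}
    (hπ : Valued.v π = WithZero.exp (-1 : ℤ)) (c : 𝓞 K ⧸ v.asIdeal) :
    T5.InIwahoriCoset v 1 (stdHecke129 v π (unif_ne_zero129 v hπ) (some c)) := by
  have hπ0 := unif_ne_zero129 v hπ
  refine ⟨locFin129 v (upperU129 (rep129 v c)),
    1, locFin129 v (mkGL129 π 0 0 1 (by simpa using hπ0)), π,
    inIwahori_upper_h510 v (rep129_mem v c), inIwahori_one_h510 v, ?_, ?_, ?_⟩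
  · rw [hπ]
    rfl
  · rw [finComp_locFin129, coe_mkGL129]
  · rw [mul_one, ← map_mul, ← mkGL_eq_upper_mul_h510 π (rep129 v c) hπ0]
    rfl

variable (K)

/-- **SD.2**: Iwahori coset systems and scalar uniformisers exist at every finite place. -/
theorem iwSysC_h510 : SD534.IwSysC K := by
  classical
  intro u
  refine ⟨?_, exists_scalarUniformizer129 u⟩
  obtain ⟨π, hπ⟩ := exists_unif129 u
  haveI : Finite (𝓞 K ⧸ u.asIdeal) := by
    apply Nat.finite_of_card_ne_zero
    rw [← Submodule.cardQuot_apply, ← Ideal.absNorm_apply]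
    exact ne_of_gt (lt_trans Nat.zero_lt_one (NumberField.HeightOneSpectrum.one_lt_absNorm u))
  letI : Fintype (𝓞 K ⧸ u.asIdeal) := Fintype.ofFinite _
  have hne : ∀ a b : 𝓞 K ⧸ u.asIdeal, a ≠ b →
      ¬ IsIntegralAt u ((stdHecke129 u π (unif_ne_zero129 u hπ) (some a))⁻¹
        * stdHecke129 u π (unif_ne_zero129 u hπ) (some b)) :=
    fun a b hab => stdHecke129_not_int u hπ (fun e => hab (Option.some.inj e))
  have hinj : Function.Injective
      (fun a : 𝓞 K ⧸ u.asIdeal => stdHecke129 u π (unif_ne_zero129 u hπ) (some a)) := by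
    intro a b hab
    by_contra hcon
    apply hne a b hcon
    have hab' : stdHecke129 u π (unif_ne_zero129 u hπ) (some a)
        = stdHecke129 u π (unif_ne_zero129 u hπ) (some b) := hab
    rw [hab', inv_mul_cancel]
    exact (inIwahori_one_h510 u).1
  refine ⟨Finset.univ.image
    (fun a : 𝓞 K ⧸ u.asIdeal => stdHecke129 u π (unif_ne_zero129 u hπ) (some a)), ?_, ?_, ?_⟩
  · rw [Finset.card_image_of_injective _ hinj, Finset.card_univ, Ideal.absNorm_apply,
      Submodule.cardQuot_apply, Nat.card_eq_fintype_card]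
  · intro h hh
    obtain ⟨a, -, rfl⟩ := Finset.mem_image.mp hh
    exact ⟨(stdHecke129_props u hπ (some a)).1, inIwahoriCoset_std_h510 u hπ a⟩
  · intro h hh h' hh' hneq hI
    obtain ⟨a, -, rfl⟩ := Finset.mem_image.mp hh
    obtain ⟨b, -, rfl⟩ := Finset.mem_image.mp hh'
    exact hne a b (fun e => hneq (by rw [e])) hI.1

end Fermat.Agent.LT.T7.H510

end
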