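import Fermat.Agent.LT.T7.H816.IotaSpec

/-!
# Row LT, tower T7, leaf T7.L2.1.C2.4 `IotaC305`, sub-leaf I.9 `ClosedC816` — helper510, OFF-MAIN

    closedC_h510 (K K') : Fermat.Agent.LT.T7.H816.ClosedC816 K K'

verbatim against `LT/T7/H816/IotaSpec.lean` (helper816@e81f893cb, sha256 c16fad08),
UNCONDITIONAL, Mathlib + spec only.

`ι` is injective (every place of `K` has a place of `K'` over it, the local maps are
homomorphisms of fields); its range is the set of the fixed points of `σ_𝔸`, closed; the range
is locally compact and Hausdorff, hence a Baire space, `𝔸_K` is σ-compact: `ι` is open onto its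
range (`AddMonoidHom.isOpenMap_of_sigmaCompact`).
-/

set_option autoImplicit false
set_option linter.style.haveILetI false
set_option linter.unusedSectionVars false

open AutomorphicForm IsDedekindDomain NumberField MeasureTheory
open scoped ComplexConjugate

noncomputable section

namespace Fermat.Agent.LT.T7.H510

open Fermat.Agent.LT.H556 Fermat.Agent.LT.H556.A0 Fermat.Agent.LT Fermat.Agent.LT.T7

variable {K K' : Type} [Field K] [NumberField K] [Field K'] [NumberField K'] [Algebra K K']

/-- Every finite place of `K` has a place of `K'` over it. -/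
theorem exists_placeOver_E510 (v : HeightOneSpectrum (𝓞 K)) :
    ∃ w : HeightOneSpectrum (𝓞 K'), PlaceOver K K' v w := by
  haveI : Algebra.IsIntegral (𝓞 K) (𝓞 K') := inferInstance
  have hinj : Function.Injective (algebraMap (𝓞 K) (𝓞 K')) :=
    FaithfulSMul.algebraMap_injective (𝓞 K) (𝓞 K')
  haveI : v.asIdeal.IsPrime := v.isPrime
  obtain ⟨P, hP, hcomap⟩ := Ideal.exists_ideal_over_prime_of_isIntegral_of_isDomain
    (S := 𝓞 K') v.asIdeal (by
      rw [(RingHom.injective_iff_ker_eq_bot _).mp hinj]
      exact bot_le)
  have hne : P ≠ ⊥ := by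
    intro h
    apply v.ne_bot
    rw [← hcomap, h, ← RingHom.ker_eq_comap_bot, (RingHom.injective_iff_ker_eq_bot _).mp hinj]
  refine ⟨⟨P, hP, hne⟩, ?_⟩
  intro x y hxy
  have hy : y = algebraMap (𝓞 K) (𝓞 K') x := by
    apply RingOfIntegers.ext
    rw [hxy]
    rfl
  show x ∈ v.asIdeal ↔ y ∈ P
  rw [hy, ← hcomap, Ideal.mem_comap]

/-- Every infinite place of `K` has a place of `K'` over it. -/
theorem exists_infOver_E510 (v : InfinitePlace K) :
    ∃ w' : InfinitePlace K', w'.comap (algebraMap K K') = v := by
  haveI : Algebra.IsAlgebraic K K' := inferInstance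
  exact InfinitePlace.comap_surjective v

/-- A pre-base-change map is injective. -/
theorem preBase_injective_E510 {ι : Adl K →+* Adl K'} (hι : H816.IsPreBase816 ι) :
    Function.Injective ι := by
  rw [injective_iff_map_eq_zero]
  intro x hx
  refine Prod.ext (funext fun v => ?_) (RestrictedProduct.ext _ _ fun v => ?_)
  · obtain ⟨w', hw'⟩ := exists_infOver_E510 (K' := K') v
    have h0 : T5.infHom w' (ι x) = 0 := by rw [hx, map_zero]
    have h1 : T5.infHom v x = 0 := by
      rcases hι.inf w' with h | h
      · rw [← hw', ← h x, h0]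
      · have := h x
        rw [h0, hw'] at this
        exact (map_eq_zero_iff (starRingEnd ℂ) (RingHom.injective _)).mp this.symm
    exact (map_eq_zero_iff _ (InfinitePlace.Completion.extensionEmbedding v).injective).mp h1
  · obtain ⟨w, hw⟩ := exists_placeOver_E510 (K' := K') v
    obtain ⟨e, i, -, -, -, hi⟩ := hι.fin v w hw
    have h0 : i (T5.finHom v x) = 0 := by rw [← hi x, hx, map_zero]
    exact (map_eq_zero_iff i i.injective).mp h0

/-- **I.9 `ClosedC816`**, unconditional. -/
theorem closedC_h510 (K K' : Type) [Field K] [NumberField K] [Field K'] [NumberField K']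
    [Algebra K K'] : H816.ClosedC816 K K' := by
  intro D _ ι hι hfix honto hLK hLK'
  obtain ⟨⟨hlc, ht2, hsc⟩, -⟩ := hLK
  obtain ⟨⟨hlc', ht2', -⟩, -⟩ := hLK'
  haveI := hlc
  haveI := ht2
  haveI := hsc
  haveI := hlc'
  haveI := ht2'
  have hinj : Function.Injective ι := preBase_injective_E510 hι
  have hrange : Set.range ι = {y : Adl K' | D.s.σA y = y} := by
    ext y
    constructor
    · rintro ⟨x, rfl⟩
      exact hfix x
    · intro hy
      exact honto y hy
  have hclosed : IsClosed (Set.range ι) := by
    rw [hrange]
    exact isClosed_eq D.s.continuous_σA continuous_id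
  -- the range, as an additive subgroup
  let H : AddSubgroup (Adl K') := ι.toAddMonoidHom.range
  have hHc : IsClosed (H : Set (Adl K')) := hclosed
  haveI : LocallyCompactSpace H := hHc.locallyCompactSpace
  let f : Adl K →+ H := ι.toAddMonoidHom.rangeRestrict
  have hfs : Function.Surjective f := ι.toAddMonoidHom.rangeRestrict_surjective
  have hfc : Continuous f := hι.cont.subtype_mk _
  have hfi : Function.Injective f := fun a b hab => hinj (congrArg Subtype.val hab)
  have hopen : IsOpenMap f := AddMonoidHom.isOpenMap_of_sigmaCompact f hfs hfc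
  have hemb : Topology.IsClosedEmbedding f :=
    ⟨(Topology.IsOpenEmbedding.of_continuous_injective_isOpenMap hfc hfi hopen).isEmbedding,
      by rw [hfs.range_eq]; exact isClosed_univ⟩
  exact hHc.isClosedEmbedding_subtypeVal.comp hemb

end Fermat.Agent.LT.T7.H510
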