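import Fermat.Agent.LT.T7.H561.OpsSpec
import Fermat.Agent.LT.H129.HeckeExists

/-!
# Row LT, tower T7, leaf T7.L2.2.B4.1 `IwSysExistsC561` — helper510, OFF-MAIN

    iwSysExistsC_h510 (K K') : Fermat.Agent.LT.T7.H561.IwSysExistsC561 K K'

verbatim against `LT/T7/H561/OpsSpec.lean` (helper561@62b060f4f, sha256 17293f38),
UNCONDITIONAL (the hypothesis `IsSetup561` is not used).  Toolbox: `LT/H129/HeckeExists.lean`
(helper129, sha256 283484f0: `locFin129`, `rep129`, `exists_unif129`).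

At a finite place `v` with uniformiser `π`: `ω = !![0, 1; π, 0]` and the `q = N v` elements
`h_a = !![a, 1; 1, 0]` (`a` a system of representatives of `𝒪/v`), embedded at `v` (`1`
elsewhere).  `h_a⁻¹ h_b = !![1, 0; b - a, 1]` and `b - a` is a unit for `a ≠ b`.
-/

set_option autoImplicit false
set_option linter.style.haveILetI false
set_option linter.unusedSectionVars false

open AutomorphicForm IsDedekindDomain NumberField MeasureTheory

noncomputable section

namespace Fermat.Agent.LT.T7.H510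

open Fermat.Agent.LT.H556 Fermat.Agent.LT.H556.A0 Fermat.Agent.LT.H129 Fermat.Agent.LT

variable {K : Type} [Field K] [NumberField K] (v : HeightOneSpectrum (𝓞 K))

/-- `!![b, 1; 1, 0] = !![a, 1; 1, 0] * !![1, 0; b - a, 1]`. -/
theorem swapU_eq_mul_lower_h510 {F : Type*} [Field F] (a b : F) :
    mkGL129 b 1 1 0 (by simp) = mkGL129 a 1 1 0 (by simp) * lowerU129 (b - a) := by
  apply ext_mat129
  unfold lowerU129
  rw [Matrix.GeneralLinearGroup.coe_mul, coe_mkGL129, coe_mkGL129, coe_mkGL129]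
  ext i j
  fin_cases i <;> fin_cases j <;> simp [Matrix.mul_apply, Fin.sum_univ_two]

/-- The element `!![a, 1; 1, 0]` at `v`, `a` the representative of a residue class. -/
def iwElt_h510 (c : 𝓞 K ⧸ v.asIdeal) : G K :=
  locFin129 v (mkGL129 (rep129 v c) 1 1 0 (by simp))

theorem iwElt_inv_mul_h510 (c c' : 𝓞 K ⧸ v.asIdeal) :
    (iwElt_h510 v c)⁻¹ * iwElt_h510 v c' = locFin129 v (lowerU129 (rep129 v c' - rep129 v c)) := by
  unfold iwElt_h510
  rw [← map_inv, ← map_mul, swapU_eq_mul_lower_h510 (rep129 v c) (rep129 v c'),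
    inv_mul_cancel_left]

theorem iwElt_not_iwahori_h510 {c c' : 𝓞 K ⧸ v.asIdeal} (h : c ≠ c') :
    ¬ T5.InIwahori v ((iwElt_h510 v c)⁻¹ * iwElt_h510 v c') := by
  intro hI
  have h3 := hI.2.2
  rw [iwElt_inv_mul_h510, finComp_locFin129] at h3
  have h0 : ((lowerU129 (rep129 v c' - rep129 v c) : GL (Fin 2) (v.adicCompletion K)) :
      Matrix (Fin 2) (Fin 2) (v.adicCompletion K)) 1 0 = rep129 v c' - rep129 v c := by
    unfold lowerU129
    rw [coe_mkGL129]
    rfl
  rw [h0, valued_rep129_sub v h] at h3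
  exact lt_irrefl _ h3

theorem iwElt_injective_h510 : Function.Injective (iwElt_h510 v) := by
  intro c c' hcc
  by_contra hne
  apply iwElt_not_iwahori_h510 v hne
  rw [hcc, inv_mul_cancel]
  have hint : IsIntegralAt v (1 : G K) := by
    rw [← isInt129_finCompHom_iff, map_one]
    exact isInt129_one _
  refine ⟨hint, by rw [inv_one]; exact hint, ?_⟩
  have h1 : finComp v (1 : G K) = 1 := by
    rw [← coe_finCompHom129, map_one]
    rfl
  rw [h1, Matrix.one_apply_ne (by decide), map_zero]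
  exact zero_lt_one

/-- The explicit system at one place. -/
theorem exists_iwSys_at_h510 :
    ∃ (H : Finset (G K)) (ω : G K),
      IsLocalAtFin v ω ∧
      (∃ c : v.adicCompletion K, Valued.v c = WithZero.exp (-1 : ℤ) ∧
        finComp v ω = !![0, 1; c, 0]) ∧
      H.card = Ideal.absNorm v.asIdeal ∧
      (∀ h ∈ H, IsLocalAtFin v h) ∧
      (∀ h ∈ H, ∃ a : v.adicCompletion K,
        a ∈ v.adicCompletionIntegers K ∧ finComp v h = !![a, 1; 1, 0]) ∧
      ∀ h ∈ H, ∀ h' ∈ H, h ≠ h' → ¬ T5.InIwahori v (h⁻¹ * h') := by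
  classical
  obtain ⟨π, hπ⟩ := exists_unif129 v
  have hπ0 := unif_ne_zero129 v hπ
  haveI : Finite (𝓞 K ⧸ v.asIdeal) := by
    apply Nat.finite_of_card_ne_zero
    rw [← Submodule.cardQuot_apply, ← Ideal.absNorm_apply]
    exact ne_of_gt (lt_trans Nat.zero_lt_one (NumberField.HeightOneSpectrum.one_lt_absNorm v))
  letI : Fintype (𝓞 K ⧸ v.asIdeal) := Fintype.ofFinite _
  refine ⟨Finset.univ.image (iwElt_h510 v),
    locFin129 v (mkGL129 0 1 π 0 (by simpa using hπ0)), isLocalAtFin_locFin129 v _,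
    ⟨π, hπ, by rw [finComp_locFin129, coe_mkGL129]⟩, ?_, ?_, ?_, ?_⟩
  · rw [Finset.card_image_of_injective _ (iwElt_injective_h510 v), Finset.card_univ,
      Ideal.absNorm_apply, Submodule.cardQuot_apply, Nat.card_eq_fintype_card]
  · intro h hh
    obtain ⟨c, -, rfl⟩ := Finset.mem_image.mp hh
    exact isLocalAtFin_locFin129 v _
  · intro h hh
    obtain ⟨c, -, rfl⟩ := Finset.mem_image.mp hh
    refine ⟨rep129 v c, rep129_mem v c, ?_⟩
    unfold iwElt_h510
    rw [finComp_locFin129, coe_mkGL129]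
  · intro h hh h' hh' hne
    obtain ⟨c, -, rfl⟩ := Finset.mem_image.mp hh
    obtain ⟨c', -, rfl⟩ := Finset.mem_image.mp hh'
    exact iwElt_not_iwahori_h510 v (fun e => hne (by rw [e]))

/-- **T7.L2.2.B4.1 `IwSysExistsC561`**, unconditional. -/
theorem iwSysExistsC_h510 (K K' : Type) [Field K] [NumberField K] [Field K'] [NumberField K']
    [Algebra K K'] : H561.IwSysExistsC561 K K' := by
  intro ℓ Φ Dt _
  choose Hs ω h1 h2 h3 h4 h5 h6 using fun j : ℕ => exists_iwSys_at_h510 (Dt.o j)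
  exact ⟨Hs, ω, ⟨h1, h2, h3, h4, h5, h6⟩⟩

end Fermat.Agent.LT.T7.H510
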