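import Fermat.Agent.LT.T7.H561.OpsSpec
import Fermat.Agent.LT.H129.HeckeExists

/-!
# Row LT, tower T7, leaf T7.L2.2.B4.8 `OpsLinkC561` — helper510, OFF-MAIN

    opsLinkC_h510 (K K') : Fermat.Agent.LT.T7.H561.OpsLinkC561 K K'

verbatim against `LT/T7/H561/OpsSpec.lean` (helper561@62b060f4f, sha256 17293f38),
UNCONDITIONAL (the hypothesis `IsSetup561` is not used).  Toolbox: `LT/H129/HeckeExists.lean`
(helper129, sha256 283484f0).

Local algebra at `v = o 0`, for ANY explicit system: `h_a = !![a, 1; 1, 0]`, `ω = !![0, 1; c, 0]`: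
`h_a ω = !![c, a; 0, 1] = n(a) diag(c, 1)` lies in `I diag(c, 1) I`;
`(h_a ω)⁻¹ (h_b ω) = ω⁻¹ !![1, 0; b - a, 1] ω = !![1, (b - a)/c; 0, 1]` is not integral when
`b - a` is a unit; `ω² = c`.
-/

set_option autoImplicit false
set_option linter.style.haveILetI false
set_option linter.unusedSectionVars false

open AutomorphicForm IsDedekindDomain NumberField MeasureTheory

noncomputable section

namespace Fermat.Agent.LT.T7.H510

open Fermat.Agent.LT.H556 Fermat.Agent.LT.H556.A0 Fermat.Agent.LT.H129 Fermat.Agent.LT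

/-! ## 1. Local algebra -/

section LocalAlg

variable {F : Type*} [Field F]

/-- `!![b, 1; 1, 0] = !![a, 1; 1, 0] * !![1, 0; b - a, 1]`. -/
theorem swap_eq_mul_lower_L510 (a b : F) :
    mkGL129 b 1 1 0 (by simp) = mkGL129 a 1 1 0 (by simp) * lowerU129 (b - a) := by
  apply ext_mat129
  unfold lowerU129
  rw [Matrix.GeneralLinearGroup.coe_mul, coe_mkGL129, coe_mkGL129, coe_mkGL129]
  ext i j
  fin_cases i <;> fin_cases j <;> simp [Matrix.mul_apply, Fin.sum_univ_two]

/-- `!![a, 1; 1, 0] * !![0, 1; c, 0] = !![1, a; 0, 1] * !![c, 0; 0, 1]`. -/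
theorem swap_mul_omega_L510 (a c : F) (hc : c ≠ 0) :
    mkGL129 a 1 1 0 (by simp) * mkGL129 0 1 c 0 (by simpa using hc)
      = upperU129 a * mkGL129 c 0 0 1 (by simpa using hc) := by
  apply ext_mat129
  unfold upperU129
  rw [Matrix.GeneralLinearGroup.coe_mul, Matrix.GeneralLinearGroup.coe_mul, coe_mkGL129,
    coe_mkGL129, coe_mkGL129, coe_mkGL129]
  ext i j
  fin_cases i <;> fin_cases j <;> simp [Matrix.mul_apply, Fin.sum_univ_two]

/-- `!![1, 0; r, 1] * !![0, 1; c, 0] = !![0, 1; c, 0] * !![1, r / c; 0, 1]`. -/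
theorem lower_mul_omega_L510 (r c : F) (hc : c ≠ 0) :
    lowerU129 r * mkGL129 0 1 c 0 (by simpa using hc)
      = mkGL129 0 1 c 0 (by simpa using hc) * upperU129 (r / c) := by
  apply ext_mat129
  unfold upperU129 lowerU129
  rw [Matrix.GeneralLinearGroup.coe_mul, Matrix.GeneralLinearGroup.coe_mul, coe_mkGL129,
    coe_mkGL129, coe_mkGL129]
  ext i j
  fin_cases i <;> fin_cases j <;> simp [Matrix.mul_apply, Fin.sum_univ_two]
  field_simp

/-- `!![0, 1; c, 0]² = c`. -/
theorem omega_sq_L510 (c : F) (hc : c ≠ 0) :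
    ((mkGL129 0 1 c 0 (by simpa using hc) * mkGL129 0 1 c 0 (by simpa using hc) :
        GL (Fin 2) F) : Matrix (Fin 2) (Fin 2) F) = Matrix.diagonal (fun _ => c) := by
  rw [Matrix.GeneralLinearGroup.coe_mul, coe_mkGL129]
  ext i j
  fin_cases i <;> fin_cases j <;> simp [Matrix.mul_apply, Fin.sum_univ_two]

end LocalAlg

/-! ## 2. The Iwahori subgroup -/

variable {K : Type} [Field K] [NumberField K] (v : HeightOneSpectrum (𝓞 K))

theorem finCompHom_eq_mkGL_L510 {g : G K} {a b c d : v.adicCompletion K}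
    (h : a * d - b * c ≠ 0) (hg : finComp v g = !![a, b; c, d]) :
    finCompHom129 v g = mkGL129 a b c d h := by
  apply ext_mat129
  rw [coe_finCompHom129, hg, coe_mkGL129]

/-- The identity lies in the Iwahori subgroup. -/
theorem inIwahori_one_L510 : T5.InIwahori v (1 : G K) := by
  have h1 : finComp v (1 : G K) = 1 := by
    rw [← coe_finCompHom129, map_one]
    rfl
  have hint : IsIntegralAt v (1 : G K) := by
    rw [← isInt129_finCompHom_iff, map_one]
    exact isInt129_one _
  refine ⟨hint, ?_, ?_⟩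
  · rw [inv_one]
    exact hint
  · rw [h1, Matrix.one_apply_ne (by decide), map_zero]
    exact zero_lt_one

/-- The upper unipotent element with an integral entry lies in the Iwahori subgroup. -/
theorem inIwahori_upper_L510 {a : v.adicCompletion K} (ha : a ∈ v.adicCompletionIntegers K) :
    T5.InIwahori v (locFin129 v (upperU129 a)) := by
  have hm := isMaxCpt129_upperU (O := v.adicCompletionIntegers K) ha
  refine ⟨?_, ?_, ?_⟩
  · rw [← isInt129_finCompHom_iff, finCompHom129_locFin129]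
    exact hm.1
  · rw [← isInt129_finCompHom_iff, map_inv, finCompHom129_locFin129]
    exact hm.2
  · rw [finComp_locFin129]
    have h0 : ((upperU129 a : GL (Fin 2) (v.adicCompletion K)) :
        Matrix (Fin 2) (Fin 2) (v.adicCompletion K)) 1 0 = 0 := by
      unfold upperU129
      rw [coe_mkGL129]
      rfl
    rw [h0, map_zero]
    exact zero_lt_one

/-- An element with component `!![1, 0; r, 1]`, `r` integral of valuation `< 1`, lies in the
Iwahori subgroup. -/
theorem inIwahori_of_lower_L510 {g : G K} {r : v.adicCompletion K}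
    (hr : r ∈ v.adicCompletionIntegers K) (hlt : Valued.v r < 1)
    (hg : finCompHom129 v g = lowerU129 r) : T5.InIwahori v g := by
  have hm := isMaxCpt129_lowerU (O := v.adicCompletionIntegers K) hr
  refine ⟨?_, ?_, ?_⟩
  · rw [← isInt129_finCompHom_iff, hg]
    exact hm.1
  · rw [← isInt129_finCompHom_iff, map_inv, hg]
    exact hm.2
  · rw [← coe_finCompHom129, hg]
    have h0 : ((lowerU129 r : GL (Fin 2) (v.adicCompletion K)) :
        Matrix (Fin 2) (Fin 2) (v.adicCompletion K)) 1 0 = r := by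
      unfold lowerU129
      rw [coe_mkGL129]
      rfl
    rw [h0]
    exact hlt

/-! ## 3. The leaf -/

/-- The link at one place, for any explicit system. -/
theorem opsLink_at_L510 {H : Finset (G K)} {ω : G K}
    (hωl : IsLocalAtFin v ω)
    (hωc : ∃ c : v.adicCompletion K, Valued.v c = WithZero.exp (-1 : ℤ) ∧
      finComp v ω = !![0, 1; c, 0])
    (hcard : H.card = Ideal.absNorm v.asIdeal)
    (hl : ∀ h ∈ H, IsLocalAtFin v h)
    (hcomp : ∀ h ∈ H, ∃ a : v.adicCompletion K,
      a ∈ v.adicCompletionIntegers K ∧ finComp v h = !![a, 1; 1, 0])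
    (hinj : ∀ h ∈ H, ∀ h' ∈ H, h ≠ h' → ¬ T5.InIwahori v (h⁻¹ * h')) :
    IsIwCosetSystem v (H.map (mulRightEmbedding ω)) ∧ IsScalarUniformizerAt v (ω * ω) := by
  obtain ⟨c, hc, hω⟩ := hωc
  have hc0 : c ≠ 0 := unif_ne_zero129 v hc
  have hW : finCompHom129 v ω = mkGL129 0 1 c 0 (by simpa using hc0) :=
    finCompHom_eq_mkGL_L510 v _ hω
  refine ⟨⟨?_, ?_, ?_⟩, ?_⟩
  · rw [Finset.card_map]
    exact hcard
  · intro g hg
    obtain ⟨h, hh, rfl⟩ := Finset.mem_map.mp hg
    show IsLocalAtFin v (h * ω) ∧ T5.InIwahoriCoset v 1 (h * ω)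
    obtain ⟨a, ha, hha⟩ := hcomp h hh
    have hA : finCompHom129 v h = mkGL129 a 1 1 0 (by simp) :=
      finCompHom_eq_mkGL_L510 v _ hha
    refine ⟨isLocalAtFin_mul129 (hl h hh) hωl, ?_⟩
    refine ⟨locFin129 v (upperU129 a), 1, locFin129 v (mkGL129 c 0 0 1 (by simpa using hc0)),
      c, inIwahori_upper_L510 v ha, inIwahori_one_L510 v, ?_, ?_, ?_⟩
    · rw [hc]
      rfl
    · rw [finComp_locFin129, coe_mkGL129]
    · rw [mul_one, ← coe_finCompHom129, ← coe_finCompHom129, map_mul, map_mul, hA, hW,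
        finCompHom129_locFin129, finCompHom129_locFin129, swap_mul_omega_L510 a c hc0]
  · intro g hg g' hg' hne hI
    obtain ⟨h, hh, rfl⟩ := Finset.mem_map.mp hg
    obtain ⟨h', hh', rfl⟩ := Finset.mem_map.mp hg'
    have hhne : h ≠ h' := fun e => hne (by rw [e])
    obtain ⟨a, ha, hha⟩ := hcomp h hh
    obtain ⟨b, hb, hhb⟩ := hcomp h' hh'
    have hA : finCompHom129 v h = mkGL129 a 1 1 0 (by simp) :=
      finCompHom_eq_mkGL_L510 v _ hha
    have hB : finCompHom129 v h' = mkGL129 b 1 1 0 (by simp) :=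
      finCompHom_eq_mkGL_L510 v _ hhb
    have e1 : finCompHom129 v (h⁻¹ * h') = lowerU129 (b - a) := by
      rw [map_mul, map_inv, hA, hB, swap_eq_mul_lower_L510 a b, inv_mul_cancel_left]
    have hba : b - a ∈ v.adicCompletionIntegers K := sub_mem hb ha
    have hval : ¬ Valued.v (b - a) < 1 := fun hlt =>
      hinj h hh h' hh' hhne (inIwahori_of_lower_L510 v hba hlt e1)
    have e2 : finCompHom129 v ((h * ω)⁻¹ * (h' * ω)) = upperU129 ((b - a) / c) := by
      have : (h * ω)⁻¹ * (h' * ω) = ω⁻¹ * ((h⁻¹ * h') * ω) := by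
        rw [mul_inv_rev]
        simp only [mul_assoc]
      rw [this, map_mul, map_mul, map_inv, e1, hW, lower_mul_omega_L510 (b - a) c hc0,
        inv_mul_cancel_left]
    have hI' : T5.InIwahori v ((h * ω)⁻¹ * (h' * ω)) := hI
    have hint := hI'.1 0 1
    rw [← coe_finCompHom129, e2] at hint
    have h01 : ((upperU129 ((b - a) / c) : GL (Fin 2) (v.adicCompletion K)) :
        Matrix (Fin 2) (Fin 2) (v.adicCompletion K)) 0 1 = (b - a) / c := by
      unfold upperU129
      rw [coe_mkGL129]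
      rfl
    rw [h01, HeightOneSpectrum.mem_adicCompletionIntegers, map_div₀, hc] at hint
    apply hval
    have hpos : (0 : WithZero (Multiplicative ℤ)) < WithZero.exp (-1 : ℤ) := WithZero.exp_pos
    have hle : Valued.v (b - a) ≤ WithZero.exp (-1 : ℤ) := (div_le_one₀ hpos).mp hint
    refine lt_of_le_of_lt hle ?_
    rw [← WithZero.exp_zero, WithZero.exp_lt_exp]
    norm_num
  · refine ⟨isLocalAtFin_mul129 hωl hωl, c, hc, ?_⟩
    rw [← coe_finCompHom129, map_mul, hW, omega_sq_L510 c hc0]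

/-- **T7.L2.2.B4.8 `OpsLinkC561`**, unconditional. -/
theorem opsLinkC_h510 (K K' : Type) [Field K] [NumberField K] [Field K'] [NumberField K']
    [Algebra K K'] : H561.OpsLinkC561 K K' := by
  intro ℓ Φ Dt _ Hs ω hsys
  exact opsLink_at_L510 (Dt.o 0) (hsys.ω_local 0) (hsys.ω_comp 0) (hsys.Hs_card 0)
    (hsys.Hs_local 0) (hsys.Hs_comp 0) (hsys.Hs_inj 0)

end Fermat.Agent.LT.T7.H510
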