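import Fermat.Agent.LT.T7.H40.ArchProjSpec

/-!
# Row LT, tower T7, leaf T7.L2.1.P1a `PosFamilyC` (registry 2166) — helper510, OFF-MAIN

    posFamilyC_h510 (K) : Fermat.Agent.LT.T7.H40.PosFamilyC K

verbatim against `LT/T7/H40/ArchProjSpec.lean` (helper40@6d20eda5a, sha256 34d7f842).
Self-contained: imports the spec only.

`realAt_h510 w s` is the real number `s` in the completion at the infinite place `w`
(characterised by `extensionEmbedding w (realAt_h510 w s) = s`; the embedding is an injective
isometry, whence multiplicativity and continuity).  The idele `a(t) = ((e^{t_w})_w, 1)` is a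
unit with inverse `a(-t)`, and `Z t` is the scalar matrix of `a(t)`.
-/

set_option autoImplicit false
set_option linter.unusedSectionVars false

open AutomorphicForm IsDedekindDomain NumberField MeasureTheory

noncomputable section

namespace Fermat.Agent.LT.T7.H510

open Fermat.Agent.LT.H556 Fermat.Agent.LT.H556.A0 Fermat.Agent.LT.T7

variable {K : Type} [Field K] [NumberField K]

/-! ## 1. Real numbers at an infinite place -/

/-- Every real number lies in the completion at an infinite place. -/
theorem exists_realAt_h510 (w : InfinitePlace K) (s : ℝ) :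
    ∃ x : w.Completion, InfinitePlace.Completion.extensionEmbedding w x = (s : ℂ) := by
  by_cases hw : w.IsReal
  · obtain ⟨x, hx⟩ := InfinitePlace.Completion.surjective_extensionEmbeddingOfIsReal hw s
    exact ⟨x, by rw [← InfinitePlace.Completion.extensionEmbeddingOfIsReal_apply hw, hx]⟩
  · exact InfinitePlace.Completion.surjective_extensionEmbedding_of_isComplex
      (InfinitePlace.not_isReal_iff_isComplex.mp hw) _

/-- The real number `s` in the completion at `w`. -/
def realAt_h510 (w : InfinitePlace K) (s : ℝ) : w.Completion :=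
  Classical.choose (exists_realAt_h510 w s)

theorem ext_realAt_h510 (w : InfinitePlace K) (s : ℝ) :
    InfinitePlace.Completion.extensionEmbedding w (realAt_h510 w s) = (s : ℂ) :=
  Classical.choose_spec (exists_realAt_h510 w s)

theorem realAt_mul_h510 (w : InfinitePlace K) (s t : ℝ) :
    realAt_h510 w (s * t) = realAt_h510 w s * realAt_h510 w t := by
  apply (InfinitePlace.Completion.extensionEmbedding w).injective
  rw [map_mul, ext_realAt_h510, ext_realAt_h510, ext_realAt_h510, Complex.ofReal_mul]

theorem realAt_one_h510 (w : InfinitePlace K) : realAt_h510 w 1 = 1 := by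
  apply (InfinitePlace.Completion.extensionEmbedding w).injective
  rw [map_one, ext_realAt_h510, Complex.ofReal_one]

theorem continuous_realAt_h510 (w : InfinitePlace K) : Continuous (realAt_h510 w) := by
  have hi : Topology.IsInducing (InfinitePlace.Completion.extensionEmbedding w) :=
    (InfinitePlace.Completion.isometry_extensionEmbedding w).isEmbedding.isInducing
  rw [hi.continuous_iff]
  have : (InfinitePlace.Completion.extensionEmbedding w) ∘ (realAt_h510 w)
      = fun s : ℝ => (s : ℂ) := by
    funext s
    exact ext_realAt_h510 w s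
  rw [this]
  exact Complex.continuous_ofReal

/-! ## 2. The idele `a(t)` -/

/-- The adele `((e^{t_w})_w, 1)`. -/
def posAdl_h510 (t : InfinitePlace K → ℝ) : Adl K :=
  ((fun w => realAt_h510 w (Real.exp (t w))), 1)

theorem posAdl_add_h510 (s t : InfinitePlace K → ℝ) :
    (posAdl_h510 (s + t) : Adl K) = posAdl_h510 s * posAdl_h510 t := by
  refine Prod.ext (funext fun w => ?_) ?_
  · show realAt_h510 w (Real.exp (s w + t w))
      = realAt_h510 w (Real.exp (s w)) * realAt_h510 w (Real.exp (t w))
    rw [Real.exp_add, realAt_mul_h510]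
  · show (1 : FiniteAdeleRing (𝓞 K) K) = 1 * 1
    rw [one_mul]

theorem posAdl_zero_h510 : (posAdl_h510 (0 : InfinitePlace K → ℝ) : Adl K) = 1 := by
  refine Prod.ext (funext fun w => ?_) rfl
  show realAt_h510 w (Real.exp 0) = 1
  rw [Real.exp_zero, realAt_one_h510]

theorem continuous_posAdl_h510 :
    Continuous (posAdl_h510 : (InfinitePlace K → ℝ) → Adl K) := by
  unfold posAdl_h510
  exact Continuous.prodMk
    (continuous_pi fun w =>
      (continuous_realAt_h510 w).comp (Real.continuous_exp.comp (continuous_apply w)))
    continuous_const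

/-- The idele `a(t)`, with inverse `a(-t)`. -/
def posUnit_h510 (t : InfinitePlace K → ℝ) : (Adl K)ˣ where
  val := posAdl_h510 t
  inv := posAdl_h510 (-t)
  val_inv := by rw [← posAdl_add_h510, add_neg_cancel, posAdl_zero_h510]
  inv_val := by rw [← posAdl_add_h510, neg_add_cancel, posAdl_zero_h510]

theorem posUnit_add_h510 (s t : InfinitePlace K → ℝ) :
    (posUnit_h510 (s + t) : (Adl K)ˣ) = posUnit_h510 s * posUnit_h510 t :=
  Units.ext (posAdl_add_h510 s t)

theorem continuous_posUnit_h510 :
    Continuous (posUnit_h510 : (InfinitePlace K → ℝ) → (Adl K)ˣ) := by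
  rw [Units.continuous_iff]
  refine ⟨continuous_posAdl_h510, ?_⟩
  show Continuous fun t : InfinitePlace K → ℝ => (posAdl_h510 (-t) : Adl K)
  exact continuous_posAdl_h510.comp continuous_neg

/-! ## 3. The family `Z` -/

/-- The scalar matrices, as a monoid homomorphism. -/
def scalHom_h510 (K : Type) [Field K] [NumberField K] :
    Adl K →* Matrix (Fin 2) (Fin 2) (Adl K) :=
  (Matrix.scalar (Fin 2) : Adl K →+* Matrix (Fin 2) (Fin 2) (Adl K)).toMonoidHom

theorem continuous_scalHom_h510 : Continuous (scalHom_h510 K) := by
  show Continuous fun a : Adl K => Matrix.diagonal (fun _ : Fin 2 => a)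
  exact Continuous.matrix_diagonal (continuous_pi fun _ => continuous_id)

/-- The family of positive scalars at infinity. -/
def posFam_h510 (t : InfinitePlace K → ℝ) : G K :=
  Units.map (scalHom_h510 K) (posUnit_h510 t)

theorem posFam_val_h510 (t : InfinitePlace K → ℝ) :
    ((posFam_h510 t : G K) : Matrix (Fin 2) (Fin 2) (Adl K))
      = Matrix.diagonal (fun _ : Fin 2 => (posAdl_h510 t : Adl K)) := rfl

theorem isPosFamily_h510 : H40.IsPosFamily40 (posFam_h510 : (InfinitePlace K → ℝ) → G K) where
  cont := (Continuous.units_map (scalHom_h510 K) continuous_scalHom_h510).comp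
    continuous_posUnit_h510
  mul s t := by
    show Units.map (scalHom_h510 K) (posUnit_h510 (s + t)) = _
    rw [posUnit_add_h510, map_mul]
    rfl
  central t g := by
    apply Units.ext
    show ((posFam_h510 t : G K) : Matrix (Fin 2) (Fin 2) (Adl K)) * g.val
      = g.val * ((posFam_h510 t : G K) : Matrix (Fin 2) (Fin 2) (Adl K))
    exact (Matrix.scalar_commute (posAdl_h510 t) (fun r => Commute.all _ _) g.val).eq
  fin_triv t v := by
    show finComp v (posFam_h510 t) = 1
    refine Matrix.ext fun i j => ?_
    show ((((posFam_h510 t : G K) : Matrix (Fin 2) (Fin 2) (Adl K)) i j).2) v = _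
    rw [posFam_val_h510, Matrix.diagonal_apply, Matrix.one_apply]
    split_ifs with h
    · rfl
    · rfl
  inf_comp t w := by
    refine Matrix.ext fun i j => ?_
    show InfinitePlace.Completion.extensionEmbedding w
      ((((posFam_h510 t : G K) : Matrix (Fin 2) (Fin 2) (Adl K)) i j).1 w) = _
    rw [posFam_val_h510, Matrix.diagonal_apply, Matrix.diagonal_apply]
    split_ifs with h
    · exact ext_realAt_h510 w _
    · exact map_zero _

/-- **T7.L2.1.P1a `PosFamilyC`** (registry 2166). -/
theorem posFamilyC_h510 (K : Type) [Field K] [NumberField K] : H40.PosFamilyC K :=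
  ⟨posFam_h510, isPosFamily_h510⟩

end Fermat.Agent.LT.T7.H510
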