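import Fermat.Agent.LT.T7.H281.OpUpSpec
import Fermat.Agent.LT.H129.HeckeExists

/-!
# Row LT, tower T7, sub-leaf T7.L2.1.F3.S `ShiftInvC281` — helper510, OFF-MAIN

    shiftInvC_h510 (K) : Fermat.Agent.LT.T7.H281.ShiftInvC281 K

verbatim against `LT/T7/H281/OpUpSpec.lean` (helper281@a99fa3f20, sha256 2dcc737e),
UNCONDITIONAL.  Toolbox: `LT/H129/HeckeExists.lean` (helper129, sha256 283484f0).

A scalar uniformiser `z` at `v = o 0` is central (`central_of_unif_S510`); `z ^ k` is trivial
outside `v`; for two scalar uniformisers `z, z'` the quotient `t = z⁻¹ z'` is a scalar unit at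
`v`, so `t ^ k` lies in the Iwahori subgroups along the orbit and `z' ^ k = z ^ k * t ^ k`.
-/

set_option autoImplicit false
set_option linter.style.haveILetI false
set_option linter.unusedSectionVars false

open AutomorphicForm IsDedekindDomain NumberField MeasureTheory

noncomputable section

namespace Fermat.Agent.LT.T7.H510

open Fermat.Agent.LT.H556 Fermat.Agent.LT.H556.A0 Fermat.Agent.LT.H129 Fermat.Agent.LT

/-! ## 1. Scalar matrices -/

section LocalAlg

variable {F : Type*} [Field F]

/-- The scalar matrices of `GL₂(F)`. -/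
def scalGL_S510 : Fˣ →* GL (Fin 2) F :=
  Units.map (Matrix.scalar (Fin 2) : F →+* Matrix (Fin 2) (Fin 2) F).toMonoidHom

theorem coe_scalGL_S510 (y : Fˣ) :
    ((scalGL_S510 y : GL (Fin 2) F) : Matrix (Fin 2) (Fin 2) F)
      = Matrix.diagonal (fun _ => (y : F)) := rfl

theorem scalGL_central_S510 (y : Fˣ) (g : GL (Fin 2) F) :
    scalGL_S510 y * g = g * scalGL_S510 y :=
  Units.ext (Matrix.scalar_commute (y : F) (fun _ => Commute.all _ _)
    (g : Matrix (Fin 2) (Fin 2) F)).eq

theorem scalGL_apply_S510 (y : Fˣ) (i j : Fin 2) :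
    ((scalGL_S510 y : GL (Fin 2) F) : Matrix (Fin 2) (Fin 2) F) i j
      = if i = j then (y : F) else 0 := by
  rw [coe_scalGL_S510, Matrix.diagonal_apply]

end LocalAlg

/-! ## 2. Scalar uniformisers -/

variable {K : Type} [Field K] [NumberField K] (v : HeightOneSpectrum (𝓞 K))

/-- The component of a scalar uniformiser. -/
theorem exists_scal_of_unif_S510 {z : G K} (hz : IsScalarUniformizerAt v z) :
    ∃ y : (v.adicCompletion K)ˣ, Valued.v (y : v.adicCompletion K) = WithZero.exp (-1 : ℤ) ∧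
      finCompHom129 v z = scalGL_S510 y := by
  obtain ⟨c, hc, hcomp⟩ := hz.2
  have hc0 : c ≠ 0 := unif_ne_zero129 v hc
  refine ⟨Units.mk0 c hc0, hc, ext_mat129 ?_⟩
  rw [coe_finCompHom129, hcomp, coe_scalGL_S510]
  rfl

/-- A scalar uniformiser is central. -/
theorem central_of_unif_S510 {z : G K} (hz : IsScalarUniformizerAt v z) (g : G K) :
    z * g = g * z := by
  obtain ⟨y, -, hy⟩ := exists_scal_of_unif_S510 v hz
  have hl := (isLocalAtFin_iff129 v z).mp hz.1
  apply G_ext129
  · intro w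
    rw [map_mul, map_mul, hl.1 w, one_mul, mul_one]
  · intro u
    rw [map_mul, map_mul]
    by_cases hu : u = v
    · subst hu
      rw [hy]
      exact scalGL_central_S510 _ _
    · rw [hl.2 u hu, one_mul, mul_one]

theorem central_zpow_S510 {z : G K} (hz : IsScalarUniformizerAt v z) (k : ℤ) (g : G K) :
    g * z ^ k = z ^ k * g :=
  (Commute.zpow_right (show Commute g z from (central_of_unif_S510 v hz g).symm) k).eq

/-- An element whose component at `u` is a scalar unit lies in the Iwahori subgroup at `u`. -/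
theorem inIwahori_of_scal_S510 {u : HeightOneSpectrum (𝓞 K)} {g : G K}
    {y : (u.adicCompletion K)ˣ} (hy : Valued.v (y : u.adicCompletion K) = 1)
    (hg : finCompHom129 u g = scalGL_S510 y) : T5.InIwahori u g := by
  have hint : ∀ y' : (u.adicCompletion K)ˣ, Valued.v (y' : u.adicCompletion K) = 1 →
      IsInt129 (u.adicCompletionIntegers K) (scalGL_S510 y') := by
    intro y' hy' i j
    rw [scalGL_apply_S510]
    split_ifs
    · rw [HeightOneSpectrum.mem_adicCompletionIntegers, hy']
    · exact (u.adicCompletionIntegers K).zero_mem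
  refine ⟨?_, ?_, ?_⟩
  · rw [← isInt129_finCompHom_iff, hg]
    exact hint y hy
  · rw [← isInt129_finCompHom_iff, map_inv, hg, ← map_inv]
    refine hint y⁻¹ ?_
    rw [Units.val_inv_eq_inv_val, map_inv₀, hy, inv_one]
  · rw [← coe_finCompHom129, hg, scalGL_apply_S510, if_neg (by decide), map_zero]
    exact zero_lt_one

/-- An element with trivial component at `u` lies in the Iwahori subgroup at `u`. -/
theorem inIwahori_of_triv_S510 {u : HeightOneSpectrum (𝓞 K)} {g : G K}
    (hg : finCompHom129 u g = 1) : T5.InIwahori u g := by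
  refine inIwahori_of_scal_S510 (y := 1) ?_ ?_
  · rw [Units.val_one, map_one]
  · rw [hg, map_one]

/-! ## 3. The sub-leaf -/

/-- **T7.L2.1.F3.S `ShiftInvC281`**, unconditional. -/
theorem shiftInvC_h510 (K : Type) [Field K] [NumberField K] : H281.ShiftInvC281 K := by
  intro 𝔫₀ l o hl ho z hz k
  have hzl := (isLocalAtFin_iff129 (o 0) z).mp hz.1
  have hzk_inf : ∀ w : InfinitePlace K, infCompHom129 w (z ^ k) = 1 := fun w => by
    rw [map_zpow, hzl.1 w, one_zpow]
  have hzk_fin : ∀ u : HeightOneSpectrum (𝓞 K), u ≠ o 0 → finCompHom129 u (z ^ k) = 1 :=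
    fun u hu => by rw [map_zpow, hzl.2 u hu, one_zpow]
  refine ⟨⟨fun w => (trivAtInf_iff129 w _).mpr (hzk_inf w), fun u hu => ?_⟩, ?_, ?_, ?_⟩
  · have hne : u ≠ o 0 := fun e => hu (e ▸ ho 0 hl)
    have h1 := hzk_fin u hne
    constructor
    · rw [← isInt129_finCompHom_iff, h1]
      exact isInt129_one _
    · rw [← isInt129_finCompHom_iff, map_inv, h1, inv_one]
      exact isInt129_one _
  · intro ψ hψ t ht x
    show ψ (x * t * z ^ k) = ψ (x * z ^ k)
    rw [mul_assoc, central_zpow_S510 (o 0) hz k t, ← mul_assoc]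
    exact hψ t ht (x * z ^ k)
  · intro ψ hψ h h1 h2 h3 x
    show ψ (x * h * z ^ k) = ψ (x * z ^ k)
    rw [mul_assoc, central_zpow_S510 (o 0) hz k h, ← mul_assoc]
    exact hψ h h1 h2 h3 (x * z ^ k)
  · intro z' hz' ψ hψ x
    show ψ (x * z ^ k) = ψ (x * z' ^ k)
    obtain ⟨y, hy, hzy⟩ := exists_scal_of_unif_S510 (o 0) hz
    obtain ⟨y', hy', hzy'⟩ := exists_scal_of_unif_S510 (o 0) hz'
    have hz'l := (isLocalAtFin_iff129 (o 0) z').mp hz'.1
    have hcomm : Commute z⁻¹ z' :=
      (show Commute z z' from central_of_unif_S510 (o 0) hz z').inv_left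
    have e : z' ^ k = z ^ k * (z⁻¹ * z') ^ k := by
      rw [hcomm.mul_zpow, inv_zpow, mul_inv_cancel_left]
    have hval : Valued.v (((y⁻¹ * y') ^ k : ((o 0).adicCompletion K)ˣ) :
        (o 0).adicCompletion K) = 1 := by
      rw [Units.val_zpow_eq_zpow_val, map_zpow₀, Units.val_mul, map_mul,
        Units.val_inv_eq_inv_val, map_inv₀, hy, hy',
        inv_mul_cancel₀ (WithZero.exp_ne_zero), one_zpow]
    have hcomp : finCompHom129 (o 0) ((z⁻¹ * z') ^ k) = scalGL_S510 ((y⁻¹ * y') ^ k) := by
      rw [map_zpow, map_mul, map_inv, hzy, hzy', map_zpow, map_mul, map_inv]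
    rw [e, ← mul_assoc]
    refine (hψ ((z⁻¹ * z') ^ k) ?_ ?_ ?_ (x * z ^ k)).symm
    · intro w
      rw [trivAtInf_iff129, map_zpow, map_mul, map_inv, hzl.1 w, hz'l.1 w, inv_one, one_mul,
        one_zpow]
    · intro u hu
      have hne : u ≠ o 0 := hu 0 hl
      rw [trivAtFin_iff129, map_zpow, map_mul, map_inv, hzl.2 u hne, hz'l.2 u hne, inv_one,
        one_mul, one_zpow]
    · intro j hj
      by_cases hoj : o j = o 0
      · rw [hoj]
        exact inIwahori_of_scal_S510 hval hcomp
      · refine inIwahori_of_triv_S510 ?_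
        rw [map_zpow, map_mul, map_inv, hzl.2 _ hoj, hz'l.2 _ hoj, inv_one, one_mul, one_zpow]

end Fermat.Agent.LT.T7.H510
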