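import Mathlib
import Fermat.Agent.LT.T6.H420.GLTop

/-!
# Local coset sums in `GL₂(k)`, `k` a local field (helper510, OFF-MAIN)

For `n : ℕ` there is a finite set `R ⊆ GL₂(𝒪) = U(0)` of representatives of `U(0) / U(n)`
(`U(n)` is open, `U(0)` is compact).  `U(n)` is normal in `U(0)`, so for every set `H` with
`U(n) H ⊆ H ⊆ U(0)`:

    1_H(x) = ∑_{r ∈ R ∩ H} 1_{U(n)}(x r⁻¹) = ∑_{r ∈ R ∩ H} 1_{U(n)}(r⁻¹ x).

Assets: helper420 `T6/H420/GLTop.lean` (`subU`, `isOpen_subU`, `isCompact_subU`).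
-/

set_option autoImplicit false
set_option linter.unusedSectionVars false

noncomputable section

namespace Fermat.Agent.LT.T7.H510

open Fermat.Agent.LT Fermat.Agent.LT.T6 Fermat.Agent.LT.T6.H420

section Local

variable {k : Type} [Field k] [Valued k T6.Γ₀]

theorem small_mul_left_K510 {n : ℕ} {A B : Matrix (Fin 2) (Fin 2) k} (hA : A ∈ matSmall 0)
    (hB : B ∈ matSmall n) : A * B ∈ matSmall n := fun i j => by
  rw [Matrix.mul_apply]
  refine Valued.v.map_sum_le fun l _ => ?_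
  rw [map_mul]
  have h1 : Valued.v (A i l) ≤ 1 := by
    have := hA i l
    simpa using this
  calc Valued.v (A i l) * Valued.v (B l j) ≤ 1 * WithZero.exp (-(n : ℤ)) :=
        mul_le_mul' h1 (hB l j)
    _ = WithZero.exp (-(n : ℤ)) := one_mul _

theorem small_mul_right_K510 {n : ℕ} {A B : Matrix (Fin 2) (Fin 2) k} (hA : A ∈ matSmall n)
    (hB : B ∈ matSmall 0) : A * B ∈ matSmall n := fun i j => by
  rw [Matrix.mul_apply]
  refine Valued.v.map_sum_le fun l _ => ?_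
  rw [map_mul]
  have h1 : Valued.v (B l j) ≤ 1 := by
    have := hB l j
    simpa using this
  calc Valued.v (A i l) * Valued.v (B l j) ≤ WithZero.exp (-(n : ℤ)) * 1 :=
        mul_le_mul' (hA i l) h1
    _ = WithZero.exp (-(n : ℤ)) := mul_one _

theorem one_mem_matSmall_K510 : (1 : Matrix (Fin 2) (Fin 2) k) ∈ matSmall 0 := fun i j => by
  by_cases h : i = j
  · subst h; simp
  · simp [h]

theorem integral_of_matBall_K510 {A : Matrix (Fin 2) (Fin 2) k} (hA : A ∈ matBall 0) :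
    A ∈ matSmall 0 := by
  have h : A = (A - 1) + 1 := by simp
  rw [h]
  exact matSmall_add ((mem_matBall_iff 0 A).1 hA) one_mem_matSmall_K510

/-- `U(n)` is normalised by `U(0) = GL₂(𝒪)`. -/
theorem inU_conj_K510 {n : ℕ} {r u : GL (Fin 2) k} (hr : InU 0 r) (hu : InU n u) :
    InU n (r * u * r⁻¹) := by
  have hr' := (inU_iff 0 r).1 hr
  have hu' := (inU_iff n u).1 hu
  have h1 := integral_of_matBall_K510 hr'.1
  have h2 := integral_of_matBall_K510 hr'.2
  have hrr : (r : Matrix (Fin 2) (Fin 2) k) * ((r⁻¹ : GL (Fin 2) k) : Matrix (Fin 2) (Fin 2) k)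
      = 1 := by
    rw [← Units.val_mul, mul_inv_cancel]; rfl
  have key : ∀ M : Matrix (Fin 2) (Fin 2) k, M ∈ matBall n →
      (r : Matrix (Fin 2) (Fin 2) k) * M * ((r⁻¹ : GL (Fin 2) k) : Matrix (Fin 2) (Fin 2) k)
        ∈ matBall n := by
    intro M hM
    rw [mem_matBall_iff] at hM ⊢
    have e : (r : Matrix (Fin 2) (Fin 2) k) * M
          * ((r⁻¹ : GL (Fin 2) k) : Matrix (Fin 2) (Fin 2) k) - 1
        = (r : Matrix (Fin 2) (Fin 2) k) * (M - 1)
          * ((r⁻¹ : GL (Fin 2) k) : Matrix (Fin 2) (Fin 2) k) := by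
      rw [mul_sub, sub_mul, mul_one, hrr]
    rw [e]
    exact small_mul_right_K510 (small_mul_left_K510 h1 hM) h2
  rw [inU_iff]
  refine ⟨?_, ?_⟩
  · rw [Units.val_mul, Units.val_mul]
    exact key _ hu'.1
  · have e : (r * u * r⁻¹)⁻¹ = r * u⁻¹ * r⁻¹ := by group
    rw [e, Units.val_mul, Units.val_mul]
    exact key _ hu'.2

/-- `x r⁻¹ ∈ U(n) ↔ r⁻¹ x ∈ U(n)` for `r ∈ U(0)`. -/
theorem inU_left_right_K510 {n : ℕ} {r : GL (Fin 2) k} (hr : InU 0 r) (x : GL (Fin 2) k) :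
    InU n (r⁻¹ * x) ↔ InU n (x * r⁻¹) := by
  constructor
  · intro h
    have := inU_conj_K510 hr h
    have e : r * (r⁻¹ * x) * r⁻¹ = x * r⁻¹ := by group
    rwa [e] at this
  · intro h
    have hr' : InU 0 r⁻¹ := (subU 0).inv_mem hr
    have := inU_conj_K510 hr' h
    have e : r⁻¹ * (x * r⁻¹) * r⁻¹⁻¹ = r⁻¹ * x := by group
    rwa [e] at this

/-- **Finite system of representatives** of `U(0) / U(n)`. -/
theorem exists_reps_K510 {q : ℕ} (h : IsLocalField k q) (n : ℕ) :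
    ∃ R : Finset (GL (Fin 2) k), (∀ r ∈ R, InU 0 r) ∧
      ∀ x : GL (Fin 2) k, InU 0 x →
        ∃ r ∈ R, InU n (x * r⁻¹) ∧ ∀ r' ∈ R, InU n (x * r'⁻¹) → r' = r := by
  classical
  obtain ⟨ϖ, hϖ⟩ := h.unif
  have hc : IsCompact ((subU 0 : Subgroup (GL (Fin 2) k)) : Set (GL (Fin 2) k)) :=
    isCompact_subU h 0
  have ho : IsOpen ((subU n : Subgroup (GL (Fin 2) k)) : Set (GL (Fin 2) k)) :=
    isOpen_subU hϖ n
  -- the open cover
  have hcov : ∀ y ∈ ((subU 0 : Subgroup (GL (Fin 2) k)) : Set (GL (Fin 2) k)),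
      {x : GL (Fin 2) k | x * y⁻¹ ∈ subU n} ∈ nhds y := by
    intro y _
    have hopen : IsOpen {x : GL (Fin 2) k | x * y⁻¹ ∈ subU n} :=
      ho.preimage (continuous_mul_const y⁻¹)
    refine hopen.mem_nhds ?_
    show y * y⁻¹ ∈ subU n
    rw [mul_inv_cancel]
    exact (subU n).one_mem
  obtain ⟨S, hS0, hScov⟩ := hc.elim_nhds_subcover _ hcov
  -- the choice of a representative, constant on the classes
  let c : GL (Fin 2) k → GL (Fin 2) k :=
    fun x => Classical.epsilon (fun s => s ∈ S ∧ x * s⁻¹ ∈ subU n)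
  have hc_spec : ∀ x, x ∈ subU 0 → c x ∈ S ∧ x * (c x)⁻¹ ∈ subU n := by
    intro x hx
    have hex : ∃ s, s ∈ S ∧ x * s⁻¹ ∈ subU n := by
      have := hScov hx
      simp only [Set.mem_iUnion] at this
      obtain ⟨s, hs, hxs⟩ := this
      exact ⟨s, hs, hxs⟩
    exact Classical.epsilon_spec hex
  have hc_congr : ∀ x y, x * y⁻¹ ∈ subU n → c x = c y := by
    intro x y hxy
    show Classical.epsilon _ = Classical.epsilon _
    congr 1
    funext s
    apply propext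
    constructor
    · rintro ⟨hs, hxs⟩
      refine ⟨hs, ?_⟩
      have e : y * s⁻¹ = (x * y⁻¹)⁻¹ * (x * s⁻¹) := by group
      rw [e]
      exact (subU n).mul_mem ((subU n).inv_mem hxy) hxs
    · rintro ⟨hs, hys⟩
      refine ⟨hs, ?_⟩
      have e : x * s⁻¹ = (x * y⁻¹) * (y * s⁻¹) := by group
      rw [e]
      exact (subU n).mul_mem hxy hys
  refine ⟨S.image c, ?_, ?_⟩
  · intro r hr
    obtain ⟨s, hs, rfl⟩ := Finset.mem_image.1 hr
    exact hS0 _ (hc_spec s (hS0 s hs)).1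
  · intro x hx
    have hx' : x ∈ subU 0 := hx
    obtain ⟨h1, h2⟩ := hc_spec x hx'
    refine ⟨c x, ?_, h2, ?_⟩
    · -- `c x = c (c x)`
      have e : c x = c (c x) := hc_congr _ _ h2
      rw [e]
      exact Finset.mem_image_of_mem c h1
    · intro r' hr' hxr'
      obtain ⟨s, hs, rfl⟩ := Finset.mem_image.1 hr'
      -- `x ~ c s ~ s`
      have hs' := hc_spec s (hS0 s hs)
      have e1 : c x = c (c s) := hc_congr _ _ hxr'
      have e2 : c s = c (c s) := hc_congr _ _ hs'.2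
      rw [e1, ← e2]

open Classical in
/-- **The coset sum.**  For `H` with `U(n) H ⊆ H ⊆ U(0)`, `1 ∈ H`: a finite non-empty set
`R ⊆ H` with `1_H(x) = ∑_{r ∈ R} 1_{U(n)}(x r⁻¹) = ∑_{r ∈ R} 1_{U(n)}(r⁻¹ x)`. -/
theorem exists_cosetSum_K510 {q : ℕ} (h : IsLocalField k q) (n : ℕ)
    (H : GL (Fin 2) k → Prop) (hH0 : ∀ y, H y → InU 0 y)
    (hHU : ∀ u y, InU n u → H y → H (u * y)) (hH1 : H 1) :
    ∃ R : Finset (GL (Fin 2) k), R.Nonempty ∧ (∀ r ∈ R, H r) ∧
      ∀ x : GL (Fin 2) k,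
        (∑ r ∈ R, (if InU n (x * r⁻¹) then (1 : ℂ) else 0)) = (if H x then 1 else 0) ∧
        (∑ r ∈ R, (if InU n (r⁻¹ * x) then (1 : ℂ) else 0)) = (if H x then 1 else 0) := by
  obtain ⟨R, hR0, hR⟩ := exists_reps_K510 h n
  have hmem : ∀ x, H x → ∃ r ∈ R.filter H, InU n (x * r⁻¹) ∧
      ∀ r' ∈ R.filter H, InU n (x * r'⁻¹) → r' = r := by
    intro x hx
    obtain ⟨r, hr, hxr, huniq⟩ := hR x (hH0 x hx)
    have hrH : H r := by
      have e : r = (x * r⁻¹)⁻¹ * x := by group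
      rw [e]
      exact hHU _ _ ((subU n).inv_mem hxr) hx
    exact ⟨r, Finset.mem_filter.2 ⟨hr, hrH⟩, hxr,
      fun r' hr' h' => huniq r' (Finset.mem_filter.1 hr').1 h'⟩
  have hsum : ∀ x : GL (Fin 2) k,
      (∑ r ∈ R.filter H, (if InU n (x * r⁻¹) then (1 : ℂ) else 0)) = (if H x then 1 else 0) := by
    intro x
    by_cases hx : H x
    · obtain ⟨r, hr, hxr, huniq⟩ := hmem x hx
      rw [if_pos hx, Finset.sum_eq_single r]
      · rw [if_pos hxr]
      · intro r' hr' hne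
        rw [if_neg]
        intro h'
        exact hne (huniq r' hr' h')
      · intro hr'
        exact absurd hr hr'
    · rw [if_neg hx]
      refine Finset.sum_eq_zero fun r hr => ?_
      rw [if_neg]
      intro h'
      apply hx
      have e : x = (x * r⁻¹) * r := by group
      rw [e]
      exact hHU _ _ h' (Finset.mem_filter.1 hr).2
  refine ⟨R.filter H, ?_, fun r hr => (Finset.mem_filter.1 hr).2, fun x => ⟨hsum x, ?_⟩⟩
  · obtain ⟨r, hr, -, -⟩ := hmem 1 hH1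
    exact ⟨r, hr⟩
  · rw [← hsum x]
    refine Finset.sum_congr rfl fun r hr => ?_
    have hr0 : InU 0 r := hR0 r (Finset.mem_filter.1 hr).1
    by_cases h' : InU n (x * r⁻¹)
    · rw [if_pos h', if_pos ((inU_left_right_K510 hr0 x).2 h')]
    · rw [if_neg h', if_neg (fun h'' => h' ((inU_left_right_K510 hr0 x).1 h''))]

end Local

end Fermat.Agent.LT.T7.H510

end
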