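import Mathlib
import Fermat.Agent.LT.T7.H57.PreBSpec
import Fermat.Agent.LT.T7.H510.CosetSum
import Fermat.Agent.LT.T6.H176.InstLocal
import Fermat.Agent.LT.H129.Local

/-!
# Row LT, tower T7, node T7.L2.1.H2a.B.0 `PB57.PreBC57` (owner helper57, second cut
`T7/H57/PreBSpec.lean`): THE KEY IDENTITY upstairs, leaf PB.0.U0 `SwapUpSumC57`
(helper510, OFF-MAIN)

    swapUpSumC_h510 (K K') : PB57.SwapUpSumC57 K K'       (UNCONDITIONAL)

`HU` = the products over `w ∈ S'` of local representatives of `H_w / U(n w)`, `H_w` the Iwahori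
subgroup over `u` and `U(n₀ w)` at the other places of `S'` (`CosetSum.lean`: `U(n w)` is open
and normal in the compact group `GL₂(𝒪_w)`).
-/

set_option autoImplicit false
set_option linter.unusedSectionVars false
set_option linter.style.haveILetI false

open AutomorphicForm IsDedekindDomain NumberField MeasureTheory

noncomputable section

namespace Fermat.Agent.LT.T7.H510

open Fermat.Agent.LT Fermat.Agent.LT.H556 Fermat.Agent.LT.H556.A0 Fermat.Agent.LT.T7
open Fermat.Agent.LT.T7.H893 Fermat.Agent.LT.T7.H305 Fermat.Agent.LT.T7.Q797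
open Fermat.Agent.LT.T7.PB57 Fermat.Agent.LT.H129

/-! ## 1. Local facts -/

section Local

variable {k : Type} [Field k] [Valued k T6.Γ₀]

theorem inU_mono_M510 {a b : ℕ} (hab : a ≤ b) {y : GL (Fin 2) k} (h : T6.InU b y) :
    T6.InU a y := by
  have hle : (WithZero.exp (-(b : ℤ)) : T6.Γ₀) ≤ WithZero.exp (-(a : ℤ)) := by
    rw [WithZero.exp_le_exp]; omega
  exact fun i j => ⟨(h i j).1.trans hle, (h i j).2.trans hle⟩

theorem entry_le_one_M510 {y : GL (Fin 2) k} (h : T6.InU 0 y) (i j : Fin 2) :
    Valued.v ((y : Matrix (Fin 2) (Fin 2) k) i j) ≤ 1 := by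
  have := integral_of_matBall_K510 ((T6.H420.inU_iff 0 y).1 h).1 i j
  simpa using this

theorem entry_inv_le_one_M510 {y : GL (Fin 2) k} (h : T6.InU 0 y) (i j : Fin 2) :
    Valued.v (((y⁻¹ : GL (Fin 2) k) : Matrix (Fin 2) (Fin 2) k) i j) ≤ 1 := by
  have := integral_of_matBall_K510 ((T6.H420.inU_iff 0 y).1 h).2 i j
  simpa using this

theorem one_entry_le_M510 (i j : Fin 2) :
    Valued.v ((1 : Matrix (Fin 2) (Fin 2) k) i j) ≤ 1 := by
  by_cases h : i = j
  · subst h; simp
  · simp [h]

theorem inU_zero_of_entries_M510 {y : GL (Fin 2) k}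
    (h1 : ∀ i j : Fin 2, Valued.v ((y : Matrix (Fin 2) (Fin 2) k) i j) ≤ 1)
    (h2 : ∀ i j : Fin 2,
      Valued.v (((y⁻¹ : GL (Fin 2) k) : Matrix (Fin 2) (Fin 2) k) i j) ≤ 1) :
    T6.InU 0 y := by
  intro i j
  have e : (WithZero.exp (-((0 : ℕ) : ℤ)) : T6.Γ₀) = 1 := by simp
  rw [e]
  exact ⟨(Valued.v.map_sub _ _).trans (max_le (h1 i j) (one_entry_le_M510 i j)),
    (Valued.v.map_sub _ _).trans (max_le (h2 i j) (one_entry_le_M510 i j))⟩

theorem inIw_inU_zero_M510 {y : GL (Fin 2) k} (h : InIw893 y) : T6.InU 0 y :=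
  inU_zero_of_entries_M510 h.1 h.2.1

theorem inIw_one_M510 : InIw893 (1 : GL (Fin 2) k) := by
  refine ⟨fun i j => one_entry_le_M510 i j, fun i j => ?_, ?_⟩
  · rw [inv_one]; exact one_entry_le_M510 i j
  · simp

theorem inIw_mul_M510 {n : ℕ} (hn : 1 ≤ n) {u y : GL (Fin 2) k} (hu : T6.InU n u)
    (hy : InIw893 y) : InIw893 (u * y) := by
  have hu0 : T6.InU 0 u := inU_mono_M510 (Nat.zero_le _) hu
  have hy0 : T6.InU 0 y := inIw_inU_zero_M510 hy
  have huy : T6.InU 0 (u * y) := (T6.H420.subU 0).mul_mem hu0 hy0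
  refine ⟨entry_le_one_M510 huy, entry_inv_le_one_M510 huy, ?_⟩
  rw [Units.val_mul, Matrix.mul_apply, Fin.sum_univ_two]
  have h10 : Valued.v ((u : Matrix (Fin 2) (Fin 2) k) 1 0) < 1 := by
    have h := (hu 1 0).1
    have e : (1 : Matrix (Fin 2) (Fin 2) k) 1 0 = 0 := by simp
    rw [e, sub_zero] at h
    refine lt_of_le_of_lt h ?_
    rw [← WithZero.exp_zero, WithZero.exp_lt_exp]
    omega
  refine lt_of_le_of_lt (Valued.v.map_add _ _) (max_lt ?_ ?_)
  · rw [map_mul]
    calc Valued.v ((u : Matrix (Fin 2) (Fin 2) k) 1 0)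
          * Valued.v ((y : Matrix (Fin 2) (Fin 2) k) 0 0)
        ≤ Valued.v ((u : Matrix (Fin 2) (Fin 2) k) 1 0) * 1 :=
          mul_le_mul' le_rfl (hy.1 0 0)
      _ < 1 := by rw [mul_one]; exact h10
  · rw [map_mul]
    calc Valued.v ((u : Matrix (Fin 2) (Fin 2) k) 1 1)
          * Valued.v ((y : Matrix (Fin 2) (Fin 2) k) 1 0)
        ≤ 1 * Valued.v ((y : Matrix (Fin 2) (Fin 2) k) 1 0) :=
          mul_le_mul' (entry_le_one_M510 hu0 1 1) le_rfl
      _ < 1 := by rw [one_mul]; exact hy.2.2

end Local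

/-! ## 2. The levels -/

section Levels

variable {K K' : Type} [Field K] [NumberField K] [Field K'] [NumberField K'] [Algebra K K']

theorem exists_placeUnder_M510 (w : HeightOneSpectrum (𝓞 K')) :
    ∃ v : HeightOneSpectrum (𝓞 K), PlaceOver K K' v w := by
  haveI : Algebra.IsIntegral (𝓞 K) (𝓞 K') := inferInstance
  haveI : w.asIdeal.IsPrime := w.isPrime
  refine ⟨⟨Ideal.comap (algebraMap (𝓞 K) (𝓞 K')) w.asIdeal, Ideal.comap_isPrime _ _,
    Ideal.IsIntegral.comap_ne_bot (𝓞 K) w.ne_bot⟩, ?_⟩
  intro x y hxy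
  have hy : y = algebraMap (𝓞 K) (𝓞 K') x := by
    apply RingOfIntegers.ext
    rw [hxy]
    rfl
  show x ∈ Ideal.comap (algebraMap (𝓞 K) (𝓞 K')) w.asIdeal ↔ y ∈ w.asIdeal
  rw [hy, Ideal.mem_comap]

theorem placeOver_under_unique_M510 {v v' : HeightOneSpectrum (𝓞 K)}
    {w : HeightOneSpectrum (𝓞 K')} (h : PlaceOver K K' v w) (h' : PlaceOver K K' v' w) :
    v = v' := by
  apply HeightOneSpectrum.ext
  ext x
  rw [h x (algebraMap (𝓞 K) (𝓞 K') x) rfl, h' x (algebraMap (𝓞 K) (𝓞 K') x) rfl]

/-- `S'` is the set of the places over `T₀`. -/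
theorem mem_S'_iff_M510 {B : L2Base K K'} {𝔫 : Ideal (𝓞 K)}
    {T₀ : Finset (HeightOneSpectrum (𝓞 K))}
    {n n₀ : HeightOneSpectrum (𝓞 K') → ℕ} {m : HeightOneSpectrum (𝓞 K) → ℕ}
    (hlev : IsLevel797 B 𝔫) (hexp : IsExp797 B 𝔫 T₀ n n₀ m) (w : HeightOneSpectrum (𝓞 K')) :
    w ∈ B.S' ↔ ∃ v ∈ T₀, PlaceOver K K' v w := by
  rw [hlev.mem_S'_g w, Ideal.dvd_iff_le]
  constructor
  · intro hw
    obtain ⟨v, hv⟩ := exists_placeUnder_M510 (K := K) w
    refine ⟨v, (hexp.mem_T₀ v).2 ?_, hv⟩
    rw [Ideal.dvd_iff_le]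
    intro x hx
    exact (hv x (algebraMap (𝓞 K) (𝓞 K') x) rfl).2 (hw (Ideal.mem_map_of_mem _ hx))
  · rintro ⟨v, hvT, hv⟩
    have h1 : 𝔫 ≤ v.asIdeal := Ideal.dvd_iff_le.1 ((hexp.mem_T₀ v).1 hvT)
    show Ideal.map (algebraMap (𝓞 K) (𝓞 K')) 𝔫 ≤ w.asIdeal
    rw [Ideal.map_le_iff_le_comap]
    intro x hx
    exact (hv x (algebraMap (𝓞 K) (𝓞 K') x) rfl).1 (h1 hx)

theorem val_unif_pow_M510 {F : Type} [Field F] [NumberField F] (v : HeightOneSpectrum (𝓞 F))
    (π : F) (hπ : v.valuation F π = WithZero.exp (-1 : ℤ)) (k : ℕ) :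
    Valued.v ((algebraMap F (v.adicCompletion F) π) ^ k) = WithZero.exp (-(k : ℤ)) := by
  have h1 : Valued.v (algebraMap F (v.adicCompletion F) π) = WithZero.exp (-1 : ℤ) := by
    have := v.valuedAdicCompletion_eq_valuation' (K := F) π
    rw [← hπ]
    exact this
  rw [map_pow, h1, ← WithZero.exp_nsmul]
  congr 1
  simp

/-- `n₀ w ≤ n w`. -/
theorem level_ge_base_M510 {B : L2Base K K'} {𝔫 : Ideal (𝓞 K)}
    {T₀ : Finset (HeightOneSpectrum (𝓞 K))}
    {n n₀ : HeightOneSpectrum (𝓞 K') → ℕ} {m : HeightOneSpectrum (𝓞 K) → ℕ}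
    (hlev : IsLevel797 B 𝔫) (hexp : IsExp797 B 𝔫 T₀ n n₀ m) (w : HeightOneSpectrum (𝓞 K')) :
    n₀ w ≤ n w := by
  obtain ⟨π, hπ⟩ := w.valuation_exists_uniformizer K'
  have hx := val_unif_pow_M510 w π hπ (n w)
  have h1 : (algebraMap K' (w.adicCompletion K') π) ^ (n w)
      ∈ idealClosure (upI (K' := K') 𝔫) w := (hexp.lev_n w _).2 (le_of_eq hx)
  have h2 : (algebraMap K' (w.adicCompletion K') π) ^ (n w) ∈ idealClosure B.𝔑₀ w :=
    closure_mono (Set.image_mono hlev.level_g) h1
  have h3 := (hexp.lev_n₀ w _).1 h2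
  rw [hx, WithZero.exp_le_exp] at h3
  omega

/-- `1 ≤ n w` at the places of `S'`. -/
theorem level_pos_M510 {B : L2Base K K'} {𝔫 : Ideal (𝓞 K)}
    {T₀ : Finset (HeightOneSpectrum (𝓞 K))}
    {n n₀ : HeightOneSpectrum (𝓞 K') → ℕ} {m : HeightOneSpectrum (𝓞 K) → ℕ}
    (hlev : IsLevel797 B 𝔫) (hexp : IsExp797 B 𝔫 T₀ n n₀ m) {w : HeightOneSpectrum (𝓞 K')}
    (hw : w ∈ B.S') : 1 ≤ n w := by
  by_contra hn
  have h0 : n w = 0 := by omega
  have hle : upI (K' := K') 𝔫 ≤ w.asIdeal := Ideal.dvd_iff_le.1 ((hlev.mem_S'_g w).1 hw)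
  have h1 : (1 : w.adicCompletion K') ∈ idealClosure (upI (K' := K') 𝔫) w := by
    refine (hexp.lev_n w 1).2 ?_
    rw [h0]
    simp
  have hcl : IsClosed {y : w.adicCompletion K' | Valued.v y < 1} := by
    have h := Valued.isClosed_ball (w.adicCompletion K')
      ((Valued.v : Valuation (w.adicCompletion K') _).restrict 1)
    have e : {y : w.adicCompletion K' | Valued.v y < 1}
        = {y | (Valued.v : Valuation (w.adicCompletion K') _).restrict y
            < (Valued.v : Valuation (w.adicCompletion K') _).restrict 1} := by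
      ext y
      simp only [Set.mem_ofPred_eq]
      rw [Valuation.restrict_lt_iff, map_one]
    rw [e]
    exact h
  have hsub : idealClosure (upI (K' := K') 𝔫) w
      ⊆ {y : w.adicCompletion K' | Valued.v y < 1} := by
    refine closure_minimal ?_ hcl
    rintro _ ⟨x, hx, rfl⟩
    show Valued.v (algebraMap K' (w.adicCompletion K') (algebraMap (𝓞 K') K' x)) < 1
    have h3 : Valued.v (algebraMap K' (w.adicCompletion K') (algebraMap (𝓞 K') K' x))
        = w.valuation K' (algebraMap (𝓞 K') K' x) :=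
      w.valuedAdicCompletion_eq_valuation' (K := K') (algebraMap (𝓞 K') K' x)
    rw [h3]
    exact (w.valuation_lt_one_iff_mem (K := K') x).2 (hle hx)
  have := hsub h1
  simp at this

end Levels

/-! ## 3. Products of local elements, translates of pure tensors -/

section Transl

variable {K : Type} [Field K] [NumberField K]

/-- The finite components of a product of local elements at distinct places. -/
theorem finComp_listProd_M510
    (tl : ∀ v : HeightOneSpectrum (𝓞 K), GL (Fin 2) (v.adicCompletion K))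
    (l : List (HeightOneSpectrum (𝓞 K))) (hl : l.Nodup) (v : HeightOneSpectrum (𝓞 K)) :
    finCompHom129 v ((l.map fun v' => locFin129 v' (tl v')).prod)
      = open Classical in if v ∈ l then tl v else 1 := by
  classical
  induction l with
  | nil => simp
  | cons a l ih =>
    rw [List.nodup_cons] at hl
    rw [List.map_cons, List.prod_cons, map_mul, ih hl.2]
    by_cases hva : v = a
    · subst hva
      rw [finCompHom129_locFin129, if_neg hl.1, mul_one, if_pos List.mem_cons_self]
    · rw [finCompHom129_locFin129_of_ne a _ hva, one_mul]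
      by_cases hvl : v ∈ l
      · rw [if_pos hvl, if_pos (List.mem_cons_of_mem _ hvl)]
      · rw [if_neg hvl, if_neg]
        rw [List.mem_cons, not_or]
        exact ⟨hva, hvl⟩

/-- The infinite components of a product of local elements. -/
theorem infComp_listProd_M510
    (tl : ∀ v : HeightOneSpectrum (𝓞 K), GL (Fin 2) (v.adicCompletion K))
    (l : List (HeightOneSpectrum (𝓞 K))) (w : InfinitePlace K) :
    infCompHom129 w ((l.map fun v' => locFin129 v' (tl v')).prod) = 1 := by
  induction l with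
  | nil => simp
  | cons a l ih =>
    rw [List.map_cons, List.prod_cons, map_mul, ih, infCompHom129_locFin129, one_mul]

theorem infGL_eq_one_M510 {h : G K} (w : InfinitePlace K) (hh : infCompHom129 w h = 1) :
    infGL305 w h = 1 := by
  have ht : TrivAtInf w h := (trivAtInf_iff129 w h).2 hh
  apply Units.ext
  refine Matrix.ext fun i j => ?_
  show InfinitePlace.Completion.extensionEmbedding w
    (((h : Matrix (Fin 2) (Fin 2) (Adl K)) i j).1 w) = (1 : Matrix (Fin 2) (Fin 2) ℂ) i j
  rw [ht i j]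
  by_cases hij : i = j
  · subst hij; simp
  · simp [hij]

theorem isIntegralAt_congr_M510 {v : HeightOneSpectrum (𝓞 K)} {g g' : G K}
    (h : finCompHom129 v g = finCompHom129 v g') : IsIntegralAt v g ↔ IsIntegralAt v g' := by
  rw [isIntegralAt_iff129, isIntegralAt_iff129, h]

theorem outT_congr_M510 {T : Finset (HeightOneSpectrum (𝓞 K))} {g g' : G K}
    (h : ∀ v, v ∉ T → finCompHom129 v g = finCompHom129 v g') :
    OutT305 T g ↔ OutT305 T g' := by
  unfold OutT305
  refine forall_congr' fun v => forall_congr' fun hv => ?_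
  rw [isIntegralAt_congr_M510 (h v hv),
    isIntegralAt_congr_M510 (g := g⁻¹) (g' := g'⁻¹) (by rw [map_inv, map_inv, h v hv])]

open Classical in
/-- The pure tensor at a translate by an element supported in `S ⊆ T`. -/
theorem pure_transl_M510 (T S : Finset (HeightOneSpectrum (𝓞 K))) (hST : S ⊆ T)
    (ψ : ∀ v : HeightOneSpectrum (𝓞 K), GL (Fin 2) (v.adicCompletion K) → ℂ)
    (Φ : InfinitePlace K → GL (Fin 2) ℂ → ℂ) (x y : G K)
    (hfin : ∀ v, v ∉ S → finCompHom129 v y = finCompHom129 v x)
    (hinf : ∀ w, infGL305 w y = infGL305 w x) :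
    pure305 T ψ Φ y = if OutT305 T x then
      ((∏ v ∈ T \ S, ψ v (finCompHom129 v x)) * ∏ v ∈ S, ψ v (finCompHom129 v y))
        * ∏ w : InfinitePlace K, Φ w (infGL305 w x) else 0 := by
  unfold pure305
  have hout : OutT305 T y ↔ OutT305 T x :=
    outT_congr_M510 fun v hv => hfin v (fun h => hv (hST h))
  by_cases ho : OutT305 T x
  · rw [if_pos (hout.2 ho), if_pos ho, ← Finset.prod_sdiff hST]
    congr 1
    · congr 1
      refine Finset.prod_congr rfl fun v hv => ?_
      show ψ v (finCompHom129 v y) = _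
      rw [hfin v (Finset.mem_sdiff.1 hv).2]
    · refine Finset.prod_congr rfl fun w _ => ?_
      rw [hinf w]
  · rw [if_neg (fun h => ho (hout.1 h)), if_neg ho]

end Transl

/-! ## 4. The key identity -/

section Main

open Classical in
/-- **LEAF PB.0.U0 `SwapUpSumC57`** (THE KEY IDENTITY upstairs), unconditional. -/
theorem swapUpSumC_h510 (K K' : Type) [Field K] [NumberField K] [Field K'] [NumberField K']
    [Algebra K K'] : SwapUpSumC57 K K' := by
  intro ℓ _ _ _ Φe B hB _ g _ 𝔫 hlev μc _ T₀ n n₀ m hexp c₁ Φ₁ F₁ _ fb _ Ω iT _ _ _ iM _ ν _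
    T T' φ₀ Φ f₀ F hdat
  have hu : B.u ∈ T₀ := (hexp.mem_T₀ _).2 hlev.u_level
  have hS' := mem_S'_iff_M510 hlev hexp
  -- the local groups
  let Hw : ∀ w : HeightOneSpectrum (𝓞 K'), GL (Fin 2) (w.adicCompletion K') → Prop :=
    fun w y => if PlaceOver K K' B.u w then InIw893 y else T6.InU (n₀ w) y
  have hloc : ∀ w : HeightOneSpectrum (𝓞 K'), w ∈ B.S' →
      ∃ R : Finset (GL (Fin 2) (w.adicCompletion K')), R.Nonempty ∧ (∀ r ∈ R, Hw w r) ∧
        ∀ x : GL (Fin 2) (w.adicCompletion K'),
          (∑ r ∈ R, (if T6.InU (n w) (x * r⁻¹) then (1 : ℂ) else 0))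
              = @ite ℂ (Hw w x) (Classical.propDecidable _) 1 0 ∧
            (∑ r ∈ R, (if T6.InU (n w) (r⁻¹ * x) then (1 : ℂ) else 0))
              = @ite ℂ (Hw w x) (Classical.propDecidable _) 1 0 := by
    intro w hw
    refine exists_cosetSum_K510 (T6.H176.instLocalC176 K' w) (n w) (Hw w) ?_ ?_ ?_
    · intro y hy
      by_cases h : PlaceOver K K' B.u w
      · simp only [Hw, if_pos h] at hy
        exact inIw_inU_zero_M510 hy
      · simp only [Hw, if_neg h] at hy
        exact inU_mono_M510 (Nat.zero_le _) hy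
    · intro u y hu hy
      by_cases h : PlaceOver K K' B.u w
      · simp only [Hw, if_pos h] at hy ⊢
        exact inIw_mul_M510 (level_pos_M510 hlev hexp hw) hu hy
      · simp only [Hw, if_neg h] at hy ⊢
        exact (T6.H420.subU (n₀ w)).mul_mem
          (inU_mono_M510 (level_ge_base_M510 hlev hexp w) hu) hy
    · by_cases h : PlaceOver K K' B.u w
      · simp only [Hw, if_pos h]
        exact inIw_one_M510
      · simp only [Hw, if_neg h]
        exact (T6.H420.subU (n₀ w)).one_mem
  choose! R hRne hRH hRsum using hloc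
  -- the global elements
  let ext : (∀ w : {w // w ∈ B.S'}, GL (Fin 2) (w.1.adicCompletion K')) →
      ∀ w : HeightOneSpectrum (𝓞 K'), GL (Fin 2) (w.adicCompletion K') :=
    fun hh w => if h : w ∈ B.S' then hh ⟨w, h⟩ else 1
  let glob : (∀ w : {w // w ∈ B.S'}, GL (Fin 2) (w.1.adicCompletion K')) → G K' :=
    fun hh => (B.S'.toList.map fun w => locFin129 w (ext hh w)).prod
  have hext_in : ∀ hh (w : HeightOneSpectrum (𝓞 K')) (h : w ∈ B.S'), ext hh w = hh ⟨w, h⟩ :=
    fun hh w h => dif_pos h
  have hext_out : ∀ hh (w : HeightOneSpectrum (𝓞 K')), w ∉ B.S' → ext hh w = 1 :=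
    fun hh w h => dif_neg h
  have hglob_fin : ∀ hh w, finCompHom129 w (glob hh) = ext hh w := by
    intro hh w
    rw [finComp_listProd_M510 (ext hh) B.S'.toList (Finset.nodup_toList _) w]
    by_cases h : w ∈ B.S'
    · rw [if_pos (Finset.mem_toList.2 h)]
    · rw [if_neg (fun h' => h (Finset.mem_toList.1 h')), hext_out hh w h]
  have hglob_inf : ∀ hh w, infCompHom129 w (glob hh) = 1 :=
    fun hh w => infComp_listProd_M510 (ext hh) B.S'.toList w
  let P : Finset (∀ w : {w // w ∈ B.S'}, GL (Fin 2) (w.1.adicCompletion K')) :=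
    Fintype.piFinset fun w => R w.1
  have hPne : P.Nonempty := by
    have : ∀ w : {w // w ∈ B.S'}, ∃ r, r ∈ R w.1 := fun w => hRne w.1 w.2
    choose r hr using this
    exact ⟨r, Fintype.mem_piFinset.2 hr⟩
  have hinj : ∀ a ∈ P, ∀ b ∈ P, glob a = glob b → a = b := by
    intro a _ b _ hab
    funext w
    have := congrArg (finCompHom129 w.1) hab
    rw [hglob_fin, hglob_fin, hext_in a w.1 w.2, hext_in b w.1 w.2] at this
    exact this
  refine ⟨P.image glob, hPne.image glob, ?_, ?_⟩
  · -- the properties of the elements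
    intro h hh
    obtain ⟨a, ha, rfl⟩ := Finset.mem_image.1 hh
    have haR : ∀ w (hw : w ∈ B.S'), Hw w (ext a w) := by
      intro w hw
      rw [hext_in a w hw]
      exact hRH w hw _ (Fintype.mem_piFinset.1 ha ⟨w, hw⟩)
    have hU0 : ∀ w, T6.InU 0 (finCompHom129 w (glob a)) := by
      intro w
      rw [hglob_fin]
      by_cases hw : w ∈ B.S'
      · have := haR w hw
        by_cases h : PlaceOver K K' B.u w
        · simp only [Hw, if_pos h] at this
          exact inIw_inU_zero_M510 this
        · simp only [Hw, if_neg h] at this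
          exact inU_mono_M510 (Nat.zero_le _) this
      · rw [hext_out a w hw]
        exact (T6.H420.subU 0).one_mem
    refine ⟨fun w => (trivAtInf_iff129 w _).2 (hglob_inf a w),
      fun w hw => (trivAtFin_iff129 w _).2 (by rw [hglob_fin, hext_out a w hw]),
      fun w => ⟨?_, ?_⟩, ?_, ?_⟩
    · intro i j
      exact (HeightOneSpectrum.mem_adicCompletionIntegers _ _ _).2
        (entry_le_one_M510 (hU0 w) i j)
    · intro i j
      have := entry_inv_le_one_M510 (hU0 w) i j
      rw [← map_inv] at this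
      exact (HeightOneSpectrum.mem_adicCompletionIntegers _ _ _).2 this
    · -- congruent to `1` modulo `𝔑₀` outside the orbit
      intro w hw i j
      have hnu : ¬ PlaceOver K K' B.u w := by
        intro h
        obtain ⟨j', hj', hwj⟩ := hB.orbit_all w h
        exact hw j' hj' hwj
      have hUn : T6.InU (n₀ w) (finCompHom129 w (glob a)) := by
        rw [hglob_fin]
        by_cases hw' : w ∈ B.S'
        · have := haR w hw'
          simp only [Hw, if_neg hnu] at this
          exact this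
        · rw [hext_out a w hw']
          exact (T6.H420.subU (n₀ w)).one_mem
      refine ⟨(hexp.lev_n₀ w _).2 ?_, (hexp.lev_n₀ w _).2 ?_⟩
      · exact (hUn i j).1
      · have := (hUn i j).2
        rw [← map_inv] at this
        exact this
    · -- Iwahori along the orbit
      intro j hj
      have hw' : B.o j ∈ B.S' := hB.orbit_level j
      have := haR (B.o j) hw'
      simp only [Hw, if_pos (hB.orbit_over j)] at this
      rw [← hglob_fin a (B.o j)] at this
      refine ⟨?_, ?_, this.2.2⟩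
      · intro i j'
        exact (HeightOneSpectrum.mem_adicCompletionIntegers _ _ _).2 (this.1 i j')
      · intro i j'
        have h2 := this.2.1 i j'
        rw [← map_inv] at h2
        exact (HeightOneSpectrum.mem_adicCompletionIntegers _ _ _).2 h2
  · -- the identities
    intro ω x
    obtain ⟨hT₀T, hOver, hLA⟩ := hdat.1 ω
    obtain ⟨-, hunit, -, -⟩ := hLA
    have hST : B.S' ⊆ T' ω := by
      intro w hw
      obtain ⟨v, hv, hvw⟩ := (hS' w).1 hw
      exact (hOver w).2 ⟨v, hT₀T hv, hvw⟩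
    -- the swapped side
    have hswap : pure305 (T' ω) (swUp57 B T₀ n₀ (φ₀ ω)) (Φ ω) x
        = if OutT305 (T' ω) x then
            ((∏ w ∈ T' ω \ B.S', φ₀ ω w (finCompHom129 w x))
              * ∏ w : {w // w ∈ B.S'},
                  @ite ℂ (Hw w.1 (finCompHom129 w.1 x)) (Classical.propDecidable _) 1 0)
            * ∏ w : InfinitePlace K', Φ ω w (infGL305 w x) else 0 := by
      rw [pure_transl_M510 (T' ω) B.S' hST _ _ x x (fun _ _ => rfl) (fun _ => rfl)]
      by_cases ho : OutT305 (T' ω) x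
      · rw [if_pos ho, if_pos ho]
        congr 2
        · refine Finset.prod_congr rfl fun w hw => ?_
          have hwS : w ∉ B.S' := (Finset.mem_sdiff.1 hw).2
          have h1 : ¬ PlaceOver K K' B.u w := fun h => hwS ((hS' w).2 ⟨B.u, hu, h⟩)
          have h2 : ¬ ∃ v ∈ T₀, PlaceOver K K' v w := fun h => hwS ((hS' w).2 h)
          unfold swUp57
          rw [if_neg h1, if_neg h2]
        · rw [← Finset.prod_coe_sort B.S']
          refine Finset.prod_congr rfl fun w _ => ?_
          have h2 : ∃ v ∈ T₀, PlaceOver K K' v w.1 := (hS' w.1).1 w.2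
          unfold swUp57
          by_cases h1 : PlaceOver K K' B.u w.1
          · have hH : Hw w.1 (finCompHom129 w.1 x) ↔ InIw893 (finCompHom129 w.1 x) := by
              simp only [Hw, if_pos h1]
            rw [if_pos h1]
            unfold iwFn893
            by_cases hy : InIw893 (finCompHom129 w.1 x)
            · rw [if_pos hy, if_pos (hH.2 hy)]
            · rw [if_neg hy, if_neg (fun h => hy (hH.1 h))]
          · have hH : Hw w.1 (finCompHom129 w.1 x)
                ↔ T6.InU (n₀ w.1) (finCompHom129 w.1 x) := by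
              simp only [Hw, if_neg h1]
            rw [if_neg h1, if_pos h2]
            unfold unitFn893
            by_cases hy : T6.InU (n₀ w.1) (finCompHom129 w.1 x)
            · rw [if_pos hy, if_pos (hH.2 hy)]
            · rw [if_neg hy, if_neg (fun h => hy (hH.1 h))]
      · rw [if_neg ho, if_neg ho]
    -- the translates
    have htr : ∀ a ∈ P, ∀ y : G K', (∀ w, finCompHom129 w y
          = finCompHom129 w x * (ext a w)⁻¹ ∨ finCompHom129 w y
          = (ext a w)⁻¹ * finCompHom129 w x) → (∀ w, infGL305 w y = infGL305 w x) →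
        pure305 (T' ω) (φ₀ ω) (Φ ω) y
          = if OutT305 (T' ω) x then
            ((∏ w ∈ T' ω \ B.S', φ₀ ω w (finCompHom129 w x))
              * ∏ w : {w // w ∈ B.S'},
                  (if T6.InU (n w.1) (finCompHom129 w.1 y) then (1 : ℂ) else 0))
            * ∏ w : InfinitePlace K', Φ ω w (infGL305 w x) else 0 := by
      intro a _ y hy hyinf
      have hfin : ∀ w, w ∉ B.S' → finCompHom129 w y = finCompHom129 w x := by
        intro w hw
        rcases hy w with h | h
        · rw [h, hext_out a w hw, inv_one, mul_one]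
        · rw [h, hext_out a w hw, inv_one, one_mul]
      rw [pure_transl_M510 (T' ω) B.S' hST _ _ x y hfin hyinf]
      by_cases ho : OutT305 (T' ω) x
      · rw [if_pos ho, if_pos ho]
        congr 2
        rw [← Finset.prod_coe_sort B.S']
        refine Finset.prod_congr rfl fun w _ => ?_
        obtain ⟨v, hv, hvw⟩ := (hS' w.1).1 w.2
        rw [hunit v hv w.1 hvw]
        rfl
      · rw [if_neg ho, if_neg ho]
    have hsumR : ∀ f : ∀ w : {w // w ∈ B.S'}, GL (Fin 2) (w.1.adicCompletion K') → ℂ,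
        (∑ a ∈ P, ∏ w : {w // w ∈ B.S'}, f w (a w))
          = ∏ w : {w // w ∈ B.S'}, ∑ r ∈ R w.1, f w r := by
      intro f
      exact (Finset.prod_univ_sum (fun w : {w // w ∈ B.S'} => R w.1) f).symm
    constructor
    · rw [hswap, Finset.sum_image hinj]
      have h1 : ∀ a ∈ P, pure305 (T' ω) (φ₀ ω) (Φ ω) (x * (glob a)⁻¹)
          = if OutT305 (T' ω) x then
            ((∏ w ∈ T' ω \ B.S', φ₀ ω w (finCompHom129 w x))
              * ∏ w : {w // w ∈ B.S'},
                  (if T6.InU (n w.1) (finCompHom129 w.1 x * (a w)⁻¹) then (1 : ℂ) else 0))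
            * ∏ w : InfinitePlace K', Φ ω w (infGL305 w x) else 0 := by
        intro a ha
        rw [htr a ha (x * (glob a)⁻¹)
          (fun w => Or.inl (by rw [map_mul, map_inv, hglob_fin]))
          (fun w => by rw [map_mul, map_inv, infGL_eq_one_M510 w (hglob_inf a w), inv_one,
            mul_one])]
        by_cases ho : OutT305 (T' ω) x
        · rw [if_pos ho, if_pos ho]
          congr 2
          refine Finset.prod_congr rfl fun w _ => ?_
          rw [map_mul, map_inv, hglob_fin, hext_in a w.1 w.2]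
        · rw [if_neg ho, if_neg ho]
      rw [Finset.sum_congr rfl h1]
      by_cases ho : OutT305 (T' ω) x
      · simp only [if_pos ho]
        rw [← Finset.sum_mul, ← Finset.mul_sum,
          hsumR (fun w r => if T6.InU (n w.1) (finCompHom129 w.1 x * r⁻¹) then (1 : ℂ) else 0)]
        congr 2
        refine Finset.prod_congr rfl fun w _ => ?_
        exact ((hRsum w.1 w.2 _).1).symm
      · simp only [if_neg ho, Finset.sum_const_zero]
    · rw [hswap, Finset.sum_image hinj]
      have h1 : ∀ a ∈ P, pure305 (T' ω) (φ₀ ω) (Φ ω) ((glob a)⁻¹ * x)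
          = if OutT305 (T' ω) x then
            ((∏ w ∈ T' ω \ B.S', φ₀ ω w (finCompHom129 w x))
              * ∏ w : {w // w ∈ B.S'},
                  (if T6.InU (n w.1) ((a w)⁻¹ * finCompHom129 w.1 x) then (1 : ℂ) else 0))
            * ∏ w : InfinitePlace K', Φ ω w (infGL305 w x) else 0 := by
        intro a ha
        rw [htr a ha ((glob a)⁻¹ * x)
          (fun w => Or.inr (by rw [map_mul, map_inv, hglob_fin]))
          (fun w => by rw [map_mul, map_inv, infGL_eq_one_M510 w (hglob_inf a w), inv_one,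
            one_mul])]
        by_cases ho : OutT305 (T' ω) x
        · rw [if_pos ho, if_pos ho]
          congr 2
          refine Finset.prod_congr rfl fun w _ => ?_
          rw [map_mul, map_inv, hglob_fin, hext_in a w.1 w.2]
        · rw [if_neg ho, if_neg ho]
      rw [Finset.sum_congr rfl h1]
      by_cases ho : OutT305 (T' ω) x
      · simp only [if_pos ho]
        rw [← Finset.sum_mul, ← Finset.mul_sum,
          hsumR (fun w r => if T6.InU (n w.1) (r⁻¹ * finCompHom129 w.1 x) then (1 : ℂ) else 0)]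
        congr 2
        refine Finset.prod_congr rfl fun w _ => ?_
        exact ((hRsum w.1 w.2 _).2).symm
      · simp only [if_neg ho, Finset.sum_const_zero]

end Main

end Fermat.Agent.LT.T7.H510

end
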