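import Mathlib
import Fermat.Agent.LT.T7.H445.StepMSpec
import Fermat.Agent.LT.H556.T0.ArchIwasawa

/-!
# Row LT, tower T7, node `B981.StepMC981` (sub-architect helper445): leaves M.0a `SphExC445`,
M.0b `SphExLocC445` (helper510, OFF-MAIN)

On the assets of helper556 (`LT/H556/T0/ArchLocal.lean`, `ArchIwasawa.lean`): the Euler element
`eulerU α β d` of `GL₂(ℂ)` and the local element `locInfComplex hw` at a complex place.
-/

set_option autoImplicit false

open IsDedekindDomain NumberField

noncomputable section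

namespace Fermat.Agent.LT.T7.H510

open Fermat.Agent.LT.H556 Fermat.Agent.LT.H556.A0 Fermat.Agent.LT.H556.T0
open Fermat.Agent.LT.T7 Fermat.Agent.LT.T7.H445

/-- **LEAF M.0b `SphExLocC445`.** -/
theorem sphExLocC_h510 : SphExLocC445 :=
  fun d => ⟨fun α β => eulerU α β d, fun α β => by rw [coe_eulerU]; rfl⟩

/-- **LEAF M.0a `SphExC445`.** -/
theorem sphExC_h510 (K : Type) [Field K] [NumberField K] : SphExC445 K :=
  fun w hw d => ⟨fun α β => locInfComplex hw (eulerU α β d), fun α β =>
    ⟨isLocalAtInf_locInfComplex hw _, by rw [infComp_locInfComplex, coe_eulerU]; rfl⟩⟩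

end Fermat.Agent.LT.T7.H510

end
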